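-- S10/S11 helper (piece D, generic part): Kummer lemma from a linear-independence certificate.
-- For a prime p >= 5 and K = Q(zeta_p): ring hom rho : O_K -> F_p[T]/(T^(p-2))[eps], zeta |-> 1+T+eps,
-- logarithmic derivative Phi = snd/fst on units; Phi kills units congruent to an integer mod p;
-- if Phi takes (p-1)/2 independent values on units then ker Phi = p-th powers (Dirichlet unit theorem).
import Mathlib

set_option autoImplicit false

open Polynomial NumberField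

namespace Fermat.Agent.S11.Kummer

variable (p : ℕ) [hp : Fact p.Prime]

/-- The truncated polynomial ring `𝔽_p[T]/(T^(p-2))`. -/
abbrev TB : Type := AdjoinRoot ((X : (ZMod p)[X]) ^ (p - 2))

/-- The class of `T`. -/
noncomputable def tT : TB p := AdjoinRoot.root _

theorem tT_pow : tT p ^ (p - 2) = 0 := by
  have h := AdjoinRoot.mk_self (f := (X : (ZMod p)[X]) ^ (p - 2))
  rw [map_pow, AdjoinRoot.mk_X] at h
  exact h

/-- `1 + T + ε`. -/
noncomputable def yy : DualNumber (TB p) := TrivSqZeroExt.inl (1 + tT p) + DualNumber.eps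

theorem yy_sub_one_pow (h5 : 5 ≤ p) : (yy p - 1) ^ (p - 1) = 0 := by
  have h1 : yy p - 1 = TrivSqZeroExt.inl (tT p) + DualNumber.eps := by
    simp [yy, TrivSqZeroExt.inl_add, TrivSqZeroExt.inl_one]
    abel
  rw [h1]
  have ht : tT p ^ (p - 1) = 0 := by
    have : p - 1 = (p - 2) + 1 := by omega
    rw [this, pow_succ, tT_pow, zero_mul]
  have ht2 : tT p ^ (p - 1 - 1) = 0 := by
    have : p - 1 - 1 = p - 2 := by omega
    rw [this, tT_pow]
  ext
  · simp [TrivSqZeroExt.fst_pow, ht]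
  · rw [TrivSqZeroExt.snd_pow]
    simp [ht2]

theorem aeval_yy_cyclotomic (h5 : 5 ≤ p) : aeval (yy p) (cyclotomic p ℤ) = 0 := by
  have h1 : aeval (yy p) (cyclotomic p ℤ) =
      eval₂ (algebraMap (ZMod p) (DualNumber (TB p))) (yy p) (cyclotomic p (ZMod p)) := by
    rw [← map_cyclotomic_int p (ZMod p), eval₂_map, aeval_def]
    congr 1
  rw [h1]
  have h2 : cyclotomic p (ZMod p) = (X - 1) ^ (p - 1) := by
    have := cyclotomic_mul_prime_pow_eq (ZMod p) (p := p) (m := 1) (by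
      intro h; exact hp.out.one_lt.ne' (Nat.dvd_one.mp h)) (k := 1) one_pos
    simpa [cyclotomic_one] using this
  rw [h2]
  simp [eval₂_pow, eval₂_sub, yy_sub_one_pow p h5]

theorem natCast_p_eq_zero : ((p : ℕ) : DualNumber (TB p)) = 0 := by
  have : ((p : ℕ) : DualNumber (TB p)) = algebraMap (ZMod p) (DualNumber (TB p)) (p : ZMod p) :=
    (map_natCast (algebraMap (ZMod p) (DualNumber (TB p))) p).symm
  rw [this, ZMod.natCast_self, map_zero]

theorem natCast_p_TB : ((p : ℕ) : TB p) = 0 := by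
  have : ((p : ℕ) : TB p) = algebraMap (ZMod p) (TB p) (p : ZMod p) :=
    (map_natCast (algebraMap (ZMod p) (TB p)) p).symm
  rw [this, ZMod.natCast_self, map_zero]

section Field

variable {p}
variable {K : Type} [Field K] [NumberField K] [IsCyclotomicExtension {p} ℚ K]
variable {ζ : K} (hζ : IsPrimitiveRoot ζ p)

omit [IsCyclotomicExtension {p} ℚ K] in
include hζ in
theorem minpoly_toInteger : minpoly ℤ hζ.toInteger = cyclotomic p ℤ := by
  have h := minpoly.algebraMap_eq (A := ℤ) (B := 𝓞 K) (B' := K)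
    (FaithfulSMul.algebraMap_injective (𝓞 K) K) hζ.toInteger
  rw [← h]
  exact (cyclotomic_eq_minpoly hζ hp.out.pos).symm

/-- The ring homomorphism `𝓞 K → 𝔽_p[T]/(T^(p-2))[ε]`, `ζ ↦ 1 + T + ε`. -/
noncomputable def rho (h5 : 5 ≤ p) : 𝓞 K →ₐ[ℤ] DualNumber (TB p) :=
  hζ.integralPowerBasis.lift (yy p) (by
    rw [IsPrimitiveRoot.integralPowerBasis_gen, minpoly_toInteger hζ]
    exact aeval_yy_cyclotomic p h5)

theorem rho_zeta (h5 : 5 ≤ p) : rho hζ h5 hζ.toInteger = yy p := by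
  have hgen := hζ.integralPowerBasis_gen
  rw [← hgen]
  exact hζ.integralPowerBasis.lift_gen (yy p) _

/-- The logarithmic derivative `Φ(u) = snd (ρ u) / fst (ρ u)`. -/
noncomputable def phi (h5 : 5 ≤ p) (u : (𝓞 K)ˣ) : TB p :=
  (rho hζ h5 (u : 𝓞 K)).snd * (rho hζ h5 ((u⁻¹ : (𝓞 K)ˣ) : 𝓞 K)).fst

theorem fst_rho_mul_inv (h5 : 5 ≤ p) (u : (𝓞 K)ˣ) :
    (rho hζ h5 (u : 𝓞 K)).fst * (rho hζ h5 ((u⁻¹ : (𝓞 K)ˣ) : 𝓞 K)).fst = 1 := by
  rw [← TrivSqZeroExt.fst_mul, ← map_mul, ← Units.val_mul, mul_inv_cancel, Units.val_one,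
    map_one, TrivSqZeroExt.fst_one]

theorem phi_mul (h5 : 5 ≤ p) (u v : (𝓞 K)ˣ) :
    phi hζ h5 (u * v) = phi hζ h5 u + phi hζ h5 v := by
  have hu := fst_rho_mul_inv hζ h5 u
  have hv := fst_rho_mul_inv hζ h5 v
  simp only [phi, mul_inv, Units.val_mul, map_mul, TrivSqZeroExt.snd_mul, TrivSqZeroExt.fst_mul,
    smul_eq_mul, MulOpposite.smul_eq_mul_unop, MulOpposite.unop_op] at *
  linear_combination
    ((rho hζ h5 (v : 𝓞 K)).snd * (rho hζ h5 ((v⁻¹ : (𝓞 K)ˣ) : 𝓞 K)).fst) * hu +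
    ((rho hζ h5 (u : 𝓞 K)).snd * (rho hζ h5 ((u⁻¹ : (𝓞 K)ˣ) : 𝓞 K)).fst) * hv

theorem phi_one (h5 : 5 ≤ p) : phi hζ h5 1 = 0 := by
  simp [phi]

/-- `Φ` as an additive homomorphism. -/
noncomputable def phiHom (h5 : 5 ≤ p) : Additive (𝓞 K)ˣ →+ TB p where
  toFun u := phi hζ h5 u.toMul
  map_zero' := phi_one hζ h5
  map_add' u v := phi_mul hζ h5 u.toMul v.toMul

theorem phi_eq_of_mul_eq (h5 : 5 ≤ p) (u : (𝓞 K)ˣ) (g : TB p)
    (h : g * (rho hζ h5 (u : 𝓞 K)).fst = (rho hζ h5 (u : 𝓞 K)).snd) : phi hζ h5 u = g := by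
  rw [phi, ← h, mul_assoc, fst_rho_mul_inv, mul_one]

theorem phi_eq_zero_of_dvd (h5 : 5 ≤ p) (u : (𝓞 K)ˣ)
    (h : ∃ n : ℤ, (p : 𝓞 K) ∣ (u : 𝓞 K) - n) : phi hζ h5 u = 0 := by
  obtain ⟨n, c, hc⟩ := h
  have hu : (u : 𝓞 K) = n + p * c := by rw [← hc]; ring
  have : rho hζ h5 (u : 𝓞 K) = (n : DualNumber (TB p)) := by
    rw [hu, map_add, map_mul, map_natCast, map_intCast, natCast_p_eq_zero, zero_mul, add_zero]
  rw [phi, this]
  simp

/-- The primitive root `ζ` as a unit of `𝓞 K`. -/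
noncomputable def zetaUnit : (𝓞 K)ˣ :=
  haveI : NeZero p := ⟨hp.out.ne_zero⟩
  (hζ.toInteger_isPrimitiveRoot.isUnit hp.out.ne_zero).unit

omit [NumberField K] [IsCyclotomicExtension {p} ℚ K] in
theorem coe_zetaUnit : ((zetaUnit hζ : (𝓞 K)ˣ) : 𝓞 K) = hζ.toInteger := rfl

omit [NumberField K] [IsCyclotomicExtension {p} ℚ K] in
theorem algebraMap_toInteger : algebraMap (𝓞 K) K hζ.toInteger = ζ := rfl

theorem card_infinitePlace (h5 : 5 ≤ p) : Fintype.card (InfinitePlace K) = (p - 1) / 2 := by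
  have : NeZero p := ⟨hp.out.ne_zero⟩
  rw [InfinitePlace.card_eq_nrRealPlaces_add_nrComplexPlaces,
    IsCyclotomicExtension.Rat.nrRealPlaces_eq_zero (n := p) K (by omega), zero_add,
    IsCyclotomicExtension.Rat.nrComplexPlaces_eq_totient_div_two (n := p),
    Nat.totient_prime hp.out]

theorem rank_eq (h5 : 5 ≤ p) : Units.rank K + 1 = (p - 1) / 2 := by
  rw [Units.rank, card_infinitePlace (p := p) h5]
  have : 2 ≤ (p - 1) / 2 := by omega
  omega

/-- Every unit is `± ζ^r` times a product of powers of fundamental units. -/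
theorem exists_decomp (h5 : 5 ≤ p) (x : (𝓞 K)ˣ) :
    ∃ (s : (𝓞 K)ˣ) (r : ℕ) (e : Fin (Units.rank K) → ℤ), (s = 1 ∨ s = -1) ∧
      x = s * zetaUnit hζ ^ r * ∏ i, Units.fundSystem K i ^ e i := by
  have : NeZero p := ⟨hp.out.ne_zero⟩
  obtain ⟨⟨τ, e⟩, hx, -⟩ := Units.exist_unique_eq_mul_prod K x
  have hτ : IsOfFinOrder (((τ : (𝓞 K)ˣ) : 𝓞 K) : K) := by
    have h1 : IsOfFinOrder (τ : (𝓞 K)ˣ) := (CommGroup.mem_torsion _).mp τ.2
    rw [isOfFinOrder_iff_pow_eq_one] at h1 ⊢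
    obtain ⟨n, hn, h⟩ := h1
    refine ⟨n, hn, ?_⟩
    have := congrArg (fun y : (𝓞 K)ˣ => ((y : 𝓞 K) : K)) h
    simpa using this
  have hodd : Odd p := hp.out.odd_of_ne_two (by omega)
  obtain ⟨r, -, hr⟩ := hζ.exists_pow_or_neg_mul_pow_of_isOfFinOrder hodd hτ
  rcases hr with hr | hr
  · refine ⟨1, r, e, Or.inl rfl, ?_⟩
    have : (τ : (𝓞 K)ˣ) = zetaUnit hζ ^ r := by
      apply Units.ext
      apply RingOfIntegers.ext
      simpa [coe_zetaUnit, algebraMap_toInteger] using hr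
    rw [hx, this, one_mul]
  · refine ⟨-1, r, e, Or.inr rfl, ?_⟩
    have : (τ : (𝓞 K)ˣ) = -1 * zetaUnit hζ ^ r := by
      apply Units.ext
      apply RingOfIntegers.ext
      simpa [coe_zetaUnit, algebraMap_toInteger] using hr
    rw [hx, this]

theorem phi_neg_one (h5 : 5 ≤ p) : phi hζ h5 (-1) = 0 := by
  simp [phi]

theorem phi_pow (h5 : 5 ≤ p) (u : (𝓞 K)ˣ) (n : ℕ) :
    phi hζ h5 (u ^ n) = (n : ZMod p) • phi hζ h5 u := by
  have := map_nsmul (phiHom hζ h5) n (Additive.ofMul u)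
  rw [Nat.cast_smul_eq_nsmul]
  exact this

theorem phi_zpow (h5 : 5 ≤ p) (u : (𝓞 K)ˣ) (n : ℤ) :
    phi hζ h5 (u ^ n) = (n : ZMod p) • phi hζ h5 u := by
  have := map_zsmul (phiHom hζ h5) n (Additive.ofMul u)
  rw [Int.cast_smul_eq_zsmul]
  exact this

theorem phi_prod (h5 : 5 ≤ p) {ι : Type} (s : Finset ι) (f : ι → (𝓞 K)ˣ) :
    phi hζ h5 (∏ i ∈ s, f i) = ∑ i ∈ s, phi hζ h5 (f i) := by
  have := map_sum (phiHom hζ h5) (fun i => Additive.ofMul (f i)) s
  rw [← ofMul_prod] at this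
  exact this

theorem phi_decomp (h5 : 5 ≤ p) (s : (𝓞 K)ˣ) (hs : s = 1 ∨ s = -1) (r : ℕ)
    (e : Fin (Units.rank K) → ℤ) :
    phi hζ h5 (s * zetaUnit hζ ^ r * ∏ i, Units.fundSystem K i ^ e i) =
      (r : ZMod p) • phi hζ h5 (zetaUnit hζ) +
        ∑ i, (e i : ZMod p) • phi hζ h5 (Units.fundSystem K i) := by
  have hs0 : phi hζ h5 s = 0 := by
    rcases hs with rfl | rfl
    · exact phi_one hζ h5
    · exact phi_neg_one hζ h5
  rw [phi_mul, phi_mul, hs0, zero_add, phi_pow, phi_prod]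
  simp only [phi_zpow]

/-- **Kummer's lemma, abstract form**: if `Φ` takes `(p-1)/2` linearly independent values on
units, then every unit in the kernel of `Φ` is a `p`-th power. -/
theorem exists_pow_of_phi_eq_zero (h5 : 5 ≤ p) (w : Fin ((p - 1) / 2) → (𝓞 K)ˣ)
    (hw : LinearIndependent (ZMod p) (fun i => phi hζ h5 (w i)))
    (u : (𝓞 K)ˣ) (hu : phi hζ h5 u = 0) : ∃ v : (𝓞 K)ˣ, u = v ^ p := by
  classical
  let g : Option (Fin (Units.rank K)) → TB p := fun o =>
    o.elim (phi hζ h5 (zetaUnit hζ)) (fun i => phi hζ h5 (Units.fundSystem K i))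
  have hgsum : ∀ c : Option (Fin (Units.rank K)) → ZMod p,
      ∑ o, c o • g o = c none • phi hζ h5 (zetaUnit hζ) +
        ∑ i, c (some i) • phi hζ h5 (Units.fundSystem K i) := by
    intro c
    rw [Fintype.sum_option]
    rfl
  have hmem : ∀ x : (𝓞 K)ˣ, phi hζ h5 x ∈ Submodule.span (ZMod p) (Set.range g) := by
    intro x
    obtain ⟨s, r, e, hs, hx⟩ := exists_decomp hζ h5 x
    rw [hx, phi_decomp hζ h5 s hs r e]
    have := hgsum (fun o => o.elim (r : ZMod p) (fun i => (e i : ZMod p)))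
    simp only [Option.elim] at this
    rw [← this]
    exact Submodule.sum_mem _ fun o _ =>
      Submodule.smul_mem _ _ (Submodule.subset_span (Set.mem_range_self o))
  have hcard : Fintype.card (Option (Fin (Units.rank K))) = (p - 1) / 2 := by
    rw [Fintype.card_option, Fintype.card_fin, rank_eq (p := p) h5]
  have hg : LinearIndependent (ZMod p) g := by
    rw [linearIndependent_iff_card_eq_finrank_span]
    apply le_antisymm
    · have hfin : Module.Finite (ZMod p) (Submodule.span (ZMod p) (Set.range g)) :=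
        Module.Finite.span_of_finite _ (Set.finite_range g)
      let w' : Fin ((p - 1) / 2) → Submodule.span (ZMod p) (Set.range g) :=
        fun i => ⟨phi hζ h5 (w i), hmem (w i)⟩
      have hw' : LinearIndependent (ZMod p) w' :=
        LinearIndependent.of_comp (Submodule.span (ZMod p) (Set.range g)).subtype hw
      have := hw'.fintype_card_le_finrank
      rw [Fintype.card_fin] at this
      rw [hcard]
      exact this
    · exact finrank_range_le_card g
  obtain ⟨s, r, e, hs, hx⟩ := exists_decomp hζ h5 u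
  have h0 := phi_decomp hζ h5 s hs r e
  rw [← hx, hu] at h0
  have hc := Fintype.linearIndependent_iff.mp hg
    (fun o => o.elim (r : ZMod p) (fun i => (e i : ZMod p)))
    (by rw [hgsum]; exact h0.symm)
  have hr : p ∣ r := (ZMod.natCast_eq_zero_iff r p).mp (hc none)
  have he : ∀ i, (p : ℤ) ∣ e i := fun i => (ZMod.intCast_zmod_eq_zero_iff_dvd (e i) p).mp (hc (some i))
  obtain ⟨r', rfl⟩ := hr
  choose e' he' using he
  refine ⟨s * zetaUnit hζ ^ r' * ∏ i, Units.fundSystem K i ^ e' i, ?_⟩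
  have hsp : s ^ p = s := by
    rcases hs with rfl | rfl
    · exact one_pow p
    · exact (hp.out.odd_of_ne_two (by omega)).neg_one_pow
  rw [hx, mul_pow, mul_pow, hsp, ← pow_mul, mul_comm r' p, ← Finset.prod_pow]
  congr 2
  funext i
  rw [he' i, zpow_mul', zpow_natCast]

/-! ### Explicit units and certificates -/

/-- The cyclotomic unit `1 + ζ + ⋯ + ζ^(j-1)` for `j` prime to `p`. -/
noncomputable def geomUnit (j : ℕ) (hj : j.Coprime p) : (𝓞 K)ˣ :=
  haveI : NeZero p := ⟨hp.out.ne_zero⟩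
  (hζ.toInteger_isPrimitiveRoot.geom_sum_isUnit hp.out.two_le hj).unit

omit [NumberField K] [IsCyclotomicExtension {p} ℚ K] in
theorem coe_geomUnit (j : ℕ) (hj : j.Coprime p) :
    ((geomUnit hζ j hj : (𝓞 K)ˣ) : 𝓞 K) = ∑ i ∈ Finset.range j, hζ.toInteger ^ i := rfl

theorem fst_yy : (yy p).fst = 1 + tT p := by simp [yy]

theorem snd_yy : (yy p).snd = 1 := by simp [yy]

theorem fst_yy_pow (i : ℕ) : (yy p ^ i).fst = (1 + tT p) ^ i := by
  rw [TrivSqZeroExt.fst_pow, fst_yy]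

theorem snd_yy_pow (i : ℕ) : (yy p ^ i).snd = (i : TB p) * (1 + tT p) ^ (i - 1) := by
  rw [TrivSqZeroExt.snd_pow, fst_yy, snd_yy]
  simp [Nat.pred_eq_sub_one]

theorem rho_geomUnit (h5 : 5 ≤ p) (j : ℕ) (hj : j.Coprime p) :
    rho hζ h5 ((geomUnit hζ j hj : (𝓞 K)ˣ) : 𝓞 K) = ∑ i ∈ Finset.range j, yy p ^ i := by
  rw [coe_geomUnit, map_sum]
  simp only [map_pow, rho_zeta]

theorem fst_rho_geomUnit (h5 : 5 ≤ p) (j : ℕ) (hj : j.Coprime p) :
    (rho hζ h5 ((geomUnit hζ j hj : (𝓞 K)ˣ) : 𝓞 K)).fst =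
      ∑ i ∈ Finset.range j, (1 + tT p) ^ i := by
  rw [rho_geomUnit, TrivSqZeroExt.fst_sum]
  simp only [fst_yy_pow]

theorem snd_rho_geomUnit (h5 : 5 ≤ p) (j : ℕ) (hj : j.Coprime p) :
    (rho hζ h5 ((geomUnit hζ j hj : (𝓞 K)ˣ) : 𝓞 K)).snd =
      ∑ i ∈ Finset.range j, (i : TB p) * (1 + tT p) ^ (i - 1) := by
  rw [rho_geomUnit, TrivSqZeroExt.snd_sum]
  simp only [snd_yy_pow]

end Field

/-- The powers `1, T, …, T^(m-1)` (`m ≤ p - 2`) are linearly independent over `𝔽_p`. -/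
theorem linearIndependent_tT_pow {m : ℕ} (hm : m ≤ p - 2) :
    LinearIndependent (ZMod p) (fun i : Fin m => tT p ^ (i : ℕ)) := by
  have hmonic : ((X : (ZMod p)[X]) ^ (p - 2)).Monic := monic_X_pow _
  have hli := (AdjoinRoot.powerBasis' hmonic).basis.linearIndependent
  rw [PowerBasis.coe_basis] at hli
  have hdim : (AdjoinRoot.powerBasis' hmonic).dim = p - 2 := by
    simp [AdjoinRoot.powerBasis'_dim]
  have hcomp := hli.comp (fun i : Fin m => (⟨i, by omega⟩ : Fin (AdjoinRoot.powerBasis' hmonic).dim))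
    (fun a b hab => by
      have := congrArg Fin.val hab
      exact Fin.ext this)
  simpa [Function.comp_def, AdjoinRoot.powerBasis'_gen, tT] using hcomp

/-- Linear independence of explicit vectors from a right-inverse certificate. -/
theorem linearIndependent_of_cert {n m : ℕ} (hm : m ≤ p - 2) (M : Fin n → Fin m → ℕ)
    (N : Fin m → Fin n → ℕ)
    (hMN : ∀ k k' : Fin n, (∑ i, M k i * N i k') % p = if k = k' then 1 else 0) :
    LinearIndependent (ZMod p)
      (fun k : Fin n => ∑ i : Fin m, (M k i : TB p) * tT p ^ (i : ℕ)) := by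
  rw [Fintype.linearIndependent_iff]
  intro c hc k'
  have h1 : ∑ k, c k • ∑ i : Fin m, (M k i : TB p) * tT p ^ (i : ℕ) =
      ∑ i : Fin m, (∑ k, c k * (M k i : ZMod p)) • tT p ^ (i : ℕ) := by
    simp_rw [Finset.smul_sum, Finset.sum_smul]
    rw [Finset.sum_comm]
    refine Finset.sum_congr rfl fun i _ => Finset.sum_congr rfl fun k _ => ?_
    rw [mul_smul, Nat.cast_smul_eq_nsmul, nsmul_eq_mul]
  rw [h1] at hc
  have h2 := Fintype.linearIndependent_iff.mp (linearIndependent_tT_pow p hm) _ hc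
  have h3 : ∀ k : Fin n, (∑ i, (M k i : ZMod p) * (N i k' : ZMod p)) = if k = k' then 1 else 0 := by
    intro k
    have := congrArg (fun x : ℕ => (x : ZMod p)) (hMN k k')
    simp only [ZMod.natCast_mod] at this
    push_cast at this
    exact this
  calc c k' = ∑ k, c k * (if k = k' then 1 else 0) := by simp
    _ = ∑ k, c k * ∑ i, (M k i : ZMod p) * (N i k' : ZMod p) := by simp_rw [h3]
    _ = ∑ i, (∑ k, c k * (M k i : ZMod p)) * (N i k' : ZMod p) := by
        simp_rw [Finset.mul_sum, Finset.sum_mul]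
        rw [Finset.sum_comm]
        refine Finset.sum_congr rfl fun i _ => Finset.sum_congr rfl fun k _ => ?_
        ring
    _ = 0 := by simp_rw [h2]; simp

/-- **Kummer's lemma from a certificate.**  `M` is the matrix of coefficients of the
logarithmic derivatives of `ζ, 1 + ζ, 1 + ζ + ζ², …` modulo `T^(p-2)`, and `N` is a right
inverse of `M` modulo `p`. -/
theorem kummer_of_cert {p : ℕ} [hp : Fact p.Prime] (h5 : 5 ≤ p)
    (K : Type) [Field K] [NumberField K] [IsCyclotomicExtension {p} ℚ K]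
    {n m : ℕ} (hn : n = (p - 1) / 2) (hm : m ≤ p - 2)
    (M : Fin n → Fin m → ℕ) (N : Fin m → Fin n → ℕ)
    (hMN : ∀ k k' : Fin n, (∑ i, M k i * N i k') % p = if k = k' then 1 else 0)
    (hcert : ∀ k : Fin n,
      (∑ i : Fin m, (M k i : TB p) * tT p ^ (i : ℕ)) *
          (if (k : ℕ) = 0 then 1 + tT p else ∑ i ∈ Finset.range (k + 1), (1 + tT p) ^ i) =
        (if (k : ℕ) = 0 then 1
          else ∑ i ∈ Finset.range (k + 1), (i : TB p) * (1 + tT p) ^ (i - 1)))
    (u : (𝓞 K)ˣ) (hu : ∃ z : ℤ, (p : 𝓞 K) ∣ (u : 𝓞 K) - z) : ∃ v : (𝓞 K)ˣ, u = v ^ p := by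
  have hζ := IsCyclotomicExtension.zeta_spec p ℚ K
  subst hn
  have hcop : ∀ k : Fin ((p - 1) / 2), ((k : ℕ) + 1).Coprime p := by
    intro k
    have hk := k.2
    exact (Nat.coprime_of_lt_prime (by omega) (by omega) hp.out).symm
  let w : Fin ((p - 1) / 2) → (𝓞 K)ˣ := fun k =>
    if (k : ℕ) = 0 then zetaUnit hζ else geomUnit hζ (k + 1) (hcop k)
  have hphi : ∀ k, phi hζ h5 (w k) = ∑ i : Fin m, (M k i : TB p) * tT p ^ (i : ℕ) := by
    intro k
    apply phi_eq_of_mul_eq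
    by_cases hk : (k : ℕ) = 0
    · have hwk : w k = zetaUnit hζ := if_pos hk
      have h := hcert k
      rw [if_pos hk, if_pos hk] at h
      rw [hwk, coe_zetaUnit, rho_zeta, fst_yy, snd_yy]
      exact h
    · have hwk : w k = geomUnit hζ (k + 1) (hcop k) := if_neg hk
      have h := hcert k
      rw [if_neg hk, if_neg hk] at h
      rw [hwk, fst_rho_geomUnit, snd_rho_geomUnit]
      exact h
  have hw : LinearIndependent (ZMod p) (fun k => phi hζ h5 (w k)) := by
    have := linearIndependent_of_cert p hm M N hMN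
    convert this using 1
    funext k
    exact hphi k
  exact exists_pow_of_phi_eq_zero hζ h5 w hw u (phi_eq_zero_of_dvd hζ h5 u hu)

end Fermat.Agent.S11.Kummer
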