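-- S10/S11 helper (piece D): Kummer's lemma for p = 13 (certificate for KummerGeneric).
import Fermat.Agent.S11.KummerGeneric

set_option autoImplicit false

open Polynomial NumberField

namespace Fermat.Agent.S11.Kummer

/-- Coefficients (mod `T^11`) of the logarithmic derivatives of `ζ, 1+ζ, …` for `p = 13`. -/
def matM13 : Fin 6 → Fin 11 → ℕ :=
  ![![1, 12, 1, 12, 1, 12, 1, 12, 1, 12, 1],
    ![7, 3, 5, 4, 11, 1, 6, 10, 8, 9, 2],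
    ![1, 4, 0, 3, 10, 2, 12, 9, 0, 10, 3],
    ![8, 3, 11, 11, 1, 1, 11, 5, 4, 9, 4],
    ![2, 0, 12, 6, 0, 2, 11, 4, 7, 3, 5],
    ![9, 8, 3, 8, 9, 1, 6, 7, 6, 7, 6]]

/-- A right inverse of `matM13` modulo `13`. -/
def matN13 : Fin 11 → Fin 6 → ℕ :=
  ![![1, 10, 12, 7, 4, 4],
    ![3, 2, 12, 11, 2, 1],
    ![0, 0, 0, 0, 0, 0],
    ![3, 10, 2, 9, 2, 2],
    ![0, 0, 0, 0, 0, 0],
    ![9, 7, 4, 9, 7, 11],
    ![0, 0, 0, 0, 0, 0],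
    ![7, 11, 0, 6, 1, 1],
    ![0, 0, 0, 0, 0, 0],
    ![4, 6, 7, 11, 5, 2],
    ![0, 0, 0, 0, 0, 0]]

theorem matM13_mul_matN13 : ∀ k k' : Fin 6,
    (∑ i, matM13 k i * matN13 i k') % 13 = if k = k' then 1 else 0 := by
  decide

theorem fact_prime_13 : Fact (Nat.Prime 13) := ⟨by norm_num⟩

/-- **Kummer's lemma for `p = 13`**: a unit of `ℤ[ζ_13]` congruent to a rational integer
modulo `13` is a `13`-th power of a unit. -/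
theorem kummer_lemma_13 (K : Type) [Field K] [NumberField K] [IsCyclotomicExtension {13} ℚ K]
    (u : (𝓞 K)ˣ) (h : ∃ n : ℤ, ((13 : ℕ) : 𝓞 K) ∣ (u : 𝓞 K) - n) : ∃ v : (𝓞 K)ˣ, u = v ^ 13 := by
  have := fact_prime_13
  have ht : tT 13 ^ 11 = 0 := tT_pow 13
  have hp0 : (13 : TB 13) = 0 := by
    have := natCast_p_TB 13
    simpa using this
  refine kummer_of_cert (p := 13) (by norm_num) K (n := 6) (m := 11) rfl (by norm_num)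
    matM13 matN13 matM13_mul_matN13 ?_ u h
  intro k
  fin_cases k
  · simp [matM13, Fin.sum_univ_succ, Finset.sum_range_succ]
    linear_combination ((1)) * ht + ((1) * tT 13 + (1) * tT 13 ^ 2 + (1) * tT 13 ^ 3 + (1) * tT 13 ^ 4 + (1) * tT 13 ^ 5 + (1) * tT 13 ^ 6 + (1) * tT 13 ^ 7 + (1) * tT 13 ^ 8 + (1) * tT 13 ^ 9 + (1) * tT 13 ^ 10) * hp0
  · simp [matM13, Fin.sum_univ_succ, Finset.sum_range_succ]
    linear_combination ((2)) * ht + ((1) + (1) * tT 13 + (1) * tT 13 ^ 2 + (1) * tT 13 ^ 3 + (2) * tT 13 ^ 4 + (1) * tT 13 ^ 5 + (1) * tT 13 ^ 6 + (2) * tT 13 ^ 7 + (2) * tT 13 ^ 8 + (2) * tT 13 ^ 9 + (1) * tT 13 ^ 10) * hp0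
  · simp [matM13, Fin.sum_univ_succ, Finset.sum_range_succ]
    linear_combination ((19) + (3) * tT 13) * ht + ((1) * tT 13 + (1) * tT 13 ^ 2 + (1) * tT 13 ^ 3 + (3) * tT 13 ^ 4 + (3) * tT 13 ^ 5 + (4) * tT 13 ^ 6 + (5) * tT 13 ^ 7 + (3) * tT 13 ^ 8 + (3) * tT 13 ^ 9 + (3) * tT 13 ^ 10) * hp0
  · simp [matM13, Fin.sum_univ_succ, Finset.sum_range_succ]
    linear_combination ((64) + (25) * tT 13 + (4) * tT 13 ^ 2) * ht + ((2) + (4) * tT 13 + (7) * tT 13 ^ 2 + (10) * tT 13 ^ 3 + (9) * tT 13 ^ 4 + (5) * tT 13 ^ 5 + (5) * tT 13 ^ 6 + (7) * tT 13 ^ 7 + (7) * tT 13 ^ 8 + (7) * tT 13 ^ 9 + (7) * tT 13 ^ 10) * hp0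
  · simp [matM13, Fin.sum_univ_succ, Finset.sum_range_succ]
    linear_combination ((119) + (72) * tT 13 + (28) * tT 13 ^ 2 + (5) * tT 13 ^ 3) * ht + ((5) * tT 13 ^ 2 + (12) * tT 13 ^ 3 + (14) * tT 13 ^ 4 + (10) * tT 13 ^ 5 + (9) * tT 13 ^ 6 + (12) * tT 13 ^ 7 + (15) * tT 13 ^ 8 + (14) * tT 13 ^ 9 + (12) * tT 13 ^ 10) * hp0
  · simp [matM13, Fin.sum_univ_succ, Finset.sum_range_succ]
    linear_combination ((368) + (268) * tT 13 + (138) * tT 13 ^ 2 + (43) * tT 13 ^ 3 + (6) * tT 13 ^ 4) * ht + ((3) + (11) * tT 13 + (21) * tT 13 ^ 2 + (28) * tT 13 ^ 3 + (31) * tT 13 ^ 4 + (31) * tT 13 ^ 5 + (29) * tT 13 ^ 6 + (26) * tT 13 ^ 7 + (26) * tT 13 ^ 8 + (29) * tT 13 ^ 9 + (31) * tT 13 ^ 10) * hp0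

end Fermat.Agent.S11.Kummer
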