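-- S10/S11 helper (piece D): Kummer's lemma for p = 5 (certificate for KummerGeneric).
import Fermat.Agent.S11.KummerGeneric

set_option autoImplicit false

open Polynomial NumberField

namespace Fermat.Agent.S11.Kummer

/-- Coefficients (mod `T^3`) of the logarithmic derivatives of `ζ, 1+ζ, …` for `p = 5`. -/
def matM5 : Fin 2 → Fin 3 → ℕ :=
  ![![1, 4, 1],
    ![3, 1, 2]]

/-- A right inverse of `matM5` modulo `5`. -/
def matN5 : Fin 3 → Fin 2 → ℕ :=
  ![![4, 4],
    ![3, 4],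
    ![0, 0]]

theorem matM5_mul_matN5 : ∀ k k' : Fin 2,
    (∑ i, matM5 k i * matN5 i k') % 5 = if k = k' then 1 else 0 := by
  decide

theorem fact_prime_5 : Fact (Nat.Prime 5) := ⟨by norm_num⟩

/-- **Kummer's lemma for `p = 5`**: a unit of `ℤ[ζ_5]` congruent to a rational integer
modulo `5` is a `5`-th power of a unit. -/
theorem kummer_lemma_5 (K : Type) [Field K] [NumberField K] [IsCyclotomicExtension {5} ℚ K]
    (u : (𝓞 K)ˣ) (h : ∃ n : ℤ, ((5 : ℕ) : 𝓞 K) ∣ (u : 𝓞 K) - n) : ∃ v : (𝓞 K)ˣ, u = v ^ 5 := by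
  have := fact_prime_5
  have ht : tT 5 ^ 3 = 0 := tT_pow 5
  have hp0 : (5 : TB 5) = 0 := by
    have := natCast_p_TB 5
    simpa using this
  refine kummer_of_cert (p := 5) (by norm_num) K (n := 2) (m := 3) rfl (by norm_num)
    matM5 matN5 matM5_mul_matN5 ?_ u h
  intro k
  fin_cases k
  · simp [matM5, Fin.sum_univ_succ, Finset.sum_range_succ]
    linear_combination ((1)) * ht + ((1) * tT 5 + (1) * tT 5 ^ 2) * hp0
  · simp [matM5, Fin.sum_univ_succ, Finset.sum_range_succ]
    linear_combination ((2)) * ht + ((1) + (1) * tT 5 + (1) * tT 5 ^ 2) * hp0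

end Fermat.Agent.S11.Kummer
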