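-- S10/S11 helper (piece D): Kummer's lemma for p = 7 (certificate for KummerGeneric).
import Fermat.Agent.S11.KummerGeneric

set_option autoImplicit false

open Polynomial NumberField

namespace Fermat.Agent.S11.Kummer

/-- Coefficients (mod `T^5`) of the logarithmic derivatives of `ζ, 1+ζ, …` for `p = 7`. -/
def matM7 : Fin 3 → Fin 5 → ℕ :=
  ![![1, 6, 1, 6, 1],
    ![4, 5, 1, 3, 2],
    ![1, 2, 0, 4, 3]]

/-- A right inverse of `matM7` modulo `7`. -/
def matN7 : Fin 5 → Fin 3 → ℕ :=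
  ![![0, 3, 3],
    ![5, 4, 0],
    ![0, 0, 0],
    ![1, 6, 3],
    ![0, 0, 0]]

theorem matM7_mul_matN7 : ∀ k k' : Fin 3,
    (∑ i, matM7 k i * matN7 i k') % 7 = if k = k' then 1 else 0 := by
  decide

theorem fact_prime_7 : Fact (Nat.Prime 7) := ⟨by norm_num⟩

/-- **Kummer's lemma for `p = 7`**: a unit of `ℤ[ζ_7]` congruent to a rational integer
modulo `7` is a `7`-th power of a unit. -/
theorem kummer_lemma_7 (K : Type) [Field K] [NumberField K] [IsCyclotomicExtension {7} ℚ K]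
    (u : (𝓞 K)ˣ) (h : ∃ n : ℤ, ((7 : ℕ) : 𝓞 K) ∣ (u : 𝓞 K) - n) : ∃ v : (𝓞 K)ˣ, u = v ^ 7 := by
  have := fact_prime_7
  have ht : tT 7 ^ 5 = 0 := tT_pow 7
  have hp0 : (7 : TB 7) = 0 := by
    have := natCast_p_TB 7
    simpa using this
  refine kummer_of_cert (p := 7) (by norm_num) K (n := 3) (m := 5) rfl (by norm_num)
    matM7 matN7 matM7_mul_matN7 ?_ u h
  intro k
  fin_cases k
  · simp [matM7, Fin.sum_univ_succ, Finset.sum_range_succ]
    linear_combination ((1)) * ht + ((1) * tT 7 + (1) * tT 7 ^ 2 + (1) * tT 7 ^ 3 + (1) * tT 7 ^ 4) * hp0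
  · simp [matM7, Fin.sum_univ_succ, Finset.sum_range_succ]
    linear_combination ((2)) * ht + ((1) + (2) * tT 7 + (1) * tT 7 ^ 2 + (1) * tT 7 ^ 3 + (1) * tT 7 ^ 4) * hp0
  · simp [matM7, Fin.sum_univ_succ, Finset.sum_range_succ]
    linear_combination ((13) + (3) * tT 7) * ht + ((1) * tT 7 + (1) * tT 7 ^ 2 + (2) * tT 7 ^ 3 + (3) * tT 7 ^ 4) * hp0

end Fermat.Agent.S11.Kummer
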