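import Mathlib

set_option autoImplicit false

namespace Fermat.Agent.S11.PID7

open NumberField Polynomial InfinitePlace Nat Real Ideal Module

/-- In the `m`-th cyclotomic field, above a prime `p ∤ m` there is a prime ideal whose inertia
degree is the order of `p` modulo `m`. -/
theorem exists_prime_inertiaDeg (m p : ℕ) [NeZero m] [Fact p.Prime] (K : Type) [Field K]
    [NumberField K] [IsCyclotomicExtension {m} ℚ K] (hm : ¬ p ∣ m) :
    ∃ P ∈ primesOver (span {(p : ℤ)}) (𝓞 K), P.inertiaDeg ℤ = orderOf (p : ZMod m) := by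
  obtain ⟨⟨P, hP1, hP2⟩⟩ := (span {(p : ℤ)}).nonempty_primesOver (S := 𝓞 K)
  exact ⟨P, ⟨hP1, hP2⟩, IsCyclotomicExtension.Rat.inertiaDeg_eq_of_not_dvd p K P hm⟩

theorem orderOf_two_zmod_seven : orderOf ((2 : ℕ) : ZMod 7) = 3 := by
  rw [orderOf_eq_iff (by norm_num)]
  refine ⟨by decide, fun m hm hm0 => ?_⟩
  interval_cases m <;> decide

theorem orderOf_three_zmod_seven : orderOf ((3 : ℕ) : ZMod 7) = 6 := by
  rw [orderOf_eq_iff (by norm_num)]
  refine ⟨by decide, fun m hm hm0 => ?_⟩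
  interval_cases m <;> decide

theorem pid_seven (K : Type) [Field K] [NumberField K] [IsCyclotomicExtension {7} ℚ K] :
    IsPrincipalIdealRing (𝓞 K) := by
  have h7 : Fact (Nat.Prime 7) := ⟨by norm_num⟩
  have hgal : IsGalois ℚ K := IsCyclotomicExtension.isGalois {7} ℚ K
  have hfr : finrank ℚ K = 6 := by
    rw [IsCyclotomicExtension.finrank (n := 7) K (cyclotomic.irreducible_rat (by simp)),
      totient_prime h7.out]
  have hnr : nrComplexPlaces K = 3 := by
    rw [IsCyclotomicExtension.Rat.nrComplexPlaces_eq_totient_div_two 7, totient_prime h7.out]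
  have hdisc : discr K = -16807 := by
    rw [IsCyclotomicExtension.Rat.discr_prime 7 K]
    norm_num
  have hM : ⌊(4 / π) ^ nrComplexPlaces K *
      ((finrank ℚ K)! / (finrank ℚ K) ^ (finrank ℚ K) * √|discr K|)⌋₊ ≤ 4 := by
    rw [hfr, hnr, hdisc]
    have hpi : (3.1415 : ℝ) < π := Real.pi_gt_d4
    have h1 : (4 / π) ^ 3 ≤ (4 / 3.1415 : ℝ) ^ 3 := by
      gcongr
    have h2 : √|((-16807 : ℤ) : ℝ)| ≤ 129.65 := by
      rw [show |((-16807 : ℤ) : ℝ)| = 16807 by norm_num]
      rw [show (129.65 : ℝ) = √(129.65 ^ 2) by rw [Real.sqrt_sq (by norm_num)]]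
      exact Real.sqrt_le_sqrt (by norm_num)
    have h3 : (4 / π) ^ 3 * (((6 : ℕ)! : ℝ) / ((6 : ℕ) : ℝ) ^ 6 * √|((-16807 : ℤ) : ℝ)|) < 5 := by
      have h4 : (((6 : ℕ)! : ℝ) / ((6 : ℕ) : ℝ) ^ 6) = 720 / 46656 := by
        norm_num [Nat.factorial]
      rw [h4]
      calc (4 / π) ^ 3 * (720 / 46656 * √|((-16807 : ℤ) : ℝ)|)
          ≤ (4 / 3.1415 : ℝ) ^ 3 * (720 / 46656 * 129.65) := by gcongr
        _ < 5 := by norm_num
    have h5 := Nat.floor_lt (by positivity) |>.mpr h3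
    exact Nat.lt_succ_iff.mp (by exact_mod_cast h5)
  apply RingOfIntegers.isPrincipalIdealRing_of_isPrincipal_of_lt_or_isPrincipal_of_mem_primesOver_of_mem_Icc
  intro p hp hpp
  have hp4 : p ≤ 4 := (Finset.mem_Icc.mp hp).2.trans hM
  have hp23 : p = 2 ∨ p = 3 := by
    interval_cases p <;> simp_all (config := {decide := true})
  rcases hp23 with rfl | rfl
  · have : Fact (Nat.Prime 2) := ⟨hpp⟩
    obtain ⟨P, hP, hf⟩ := exists_prime_inertiaDeg 7 2 K (by norm_num)
    refine ⟨P, hP, Or.inl ?_⟩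
    rw [hf, orderOf_two_zmod_seven]
    exact lt_of_le_of_lt hM (by norm_num)
  · have : Fact (Nat.Prime 3) := ⟨hpp⟩
    obtain ⟨P, hP, hf⟩ := exists_prime_inertiaDeg 7 3 K (by norm_num)
    refine ⟨P, hP, Or.inl ?_⟩
    rw [hf, orderOf_three_zmod_seven]
    exact lt_of_le_of_lt hM (by norm_num)

end Fermat.Agent.S11.PID7

namespace Fermat.Agent.S11.PID

open NumberField in
/-- Interface name required by the S10/S11 wiring. -/
theorem pid_seven (K : Type) [Field K] [NumberField K] [IsCyclotomicExtension {7} ℚ K] :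
    IsPrincipalIdealRing (𝓞 K) :=
  Fermat.Agent.S11.PID7.pid_seven K

end Fermat.Agent.S11.PID
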