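import Fermat.Agent.S11.PIDGeneric

set_option autoImplicit false

namespace Fermat.Agent.S11.PID

open NumberField Polynomial Ideal RingOfIntegers IsCyclotomicExtension IsCyclotomicExtension.Rat
open Module InfinitePlace Nat Real

/-- The Minkowski bound of `ℚ(ζ₁₃)` is smaller than `307`. -/
theorem minkowski_thirteen (K : Type*) [Field K] [NumberField K]
    [IsCyclotomicExtension {13} ℚ K] :
    ⌊(4 / π) ^ nrComplexPlaces K *
      ((finrank ℚ K)! / (finrank ℚ K) ^ (finrank ℚ K) * √|discr K|)⌋₊ ≤ 306 := by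
  have : Fact (Nat.Prime 13) := ⟨by norm_num⟩
  rw [discr_prime 13 K, IsCyclotomicExtension.Rat.finrank 13 K,
    nrComplexPlaces_eq_totient_div_two 13,
    totient_prime (by norm_num : Nat.Prime 13)]
  have h1 : (12 : ℕ)! = 479001600 := by decide
  have h2 : |(((-1 : ℤ) ^ ((13 - 1) / 2) * ((13 : ℕ) : ℤ) ^ (13 - 2) : ℤ) : ℝ)|
      = 1792160394037 := by
    norm_num
  have hs : √(1792160394037 : ℝ) < 1338716 := by
    rw [Real.sqrt_lt' (by norm_num)]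
    norm_num
  have hpi : (4 / π) ^ 6 < (4 / 3.1415) ^ 6 := by
    gcongr
    exact pi_gt_d4
  apply Nat.le_of_lt_succ
  rw [Nat.floor_lt (by positivity)]
  simp only [show (13 - 1) / 2 = 6 from rfl, show 13 - 1 = 12 from rfl, h1, h2]
  calc (4 / π) ^ 6 * (((479001600 : ℕ) : ℝ) / ((12 : ℕ) : ℝ) ^ 12 * √1792160394037)
      < (4 / 3.1415) ^ 6 * (((479001600 : ℕ) : ℝ) / ((12 : ℕ) : ℝ) ^ 12 * 1338716) := by
        apply mul_lt_mul hpi _ (by positivity) (by positivity)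
        apply mul_le_mul_of_nonneg_left hs.le (by positivity)
    _ < ((succ 306 : ℕ) : ℝ) := by norm_num

theorem zetaInt_sum_thirteen (K : Type*) [Field K] [NumberField K]
    [IsCyclotomicExtension {13} ℚ K] [Fact (Nat.Prime 13)] :
    1 + zetaInt 13 K + zetaInt 13 K ^ 2 + zetaInt 13 K ^ 3 + zetaInt 13 K ^ 4 + zetaInt 13 K ^ 5
      + zetaInt 13 K ^ 6 + zetaInt 13 K ^ 7 + zetaInt 13 K ^ 8 + zetaInt 13 K ^ 9 + zetaInt 13 K ^ 10
      + zetaInt 13 K ^ 11 + zetaInt 13 K ^ 12 = 0 := by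
  simpa [Finset.sum_range_succ] using zetaInt_sum 13 K

theorem cubic_map_three :
    (X ^ 3 - X - 1 : ℤ[X]).map (Int.castRingHom (ZMod 3)) = X ^ 3 - X - 1 := by
  simp

theorem cubic_no_root_three : ∀ x : ZMod 3, x ^ 3 - x - 1 ≠ 0 := by
  decide

theorem cubic_irreducible_three [Fact (Nat.Prime 3)] :
    Irreducible (X ^ 3 - X - 1 : (ZMod 3)[X]) := by
  have hdeg : (X ^ 3 - X - 1 : (ZMod 3)[X]).natDegree = 3 := by
    compute_degree!
  apply irreducible_of_degree_le_three_of_not_isRoot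
  · rw [hdeg]
    decide
  · intro x
    rw [IsRoot.def]
    simp only [eval_sub, eval_pow, eval_X, eval_one]
    exact cubic_no_root_three x

theorem cubic_monic_three : (X ^ 3 - X - 1 : (ZMod 3)[X]).Monic := by
  monicity!

theorem cubic_dvd_three : (X ^ 3 - X - 1 : (ZMod 3)[X]) ∣ cyclotomic 13 (ZMod 3) := by
  have : Fact (Nat.Prime 13) := ⟨by norm_num⟩
  have hZ : cyclotomic 13 ℤ = (X ^ 3 - X - 1) * (20 + 15 * X + 11 * X ^ 2 + 8 * X ^ 3 + 6 * X ^ 4 + 4 * X ^ 5 + 3 * X ^ 6 + 2 * X ^ 7 + X ^ 8 + X ^ 9)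
      + C 3 * (7 + 12 * X + 9 * X ^ 2) := by
    rw [cyclotomic_prime]
    simp only [Finset.sum_range_succ, Finset.range_zero, Finset.sum_empty, map_ofNat]
    ring
  have h3 : (C (3 : ℤ)).map (Int.castRingHom (ZMod 3)) = 0 := by
    rw [map_C]
    have : (Int.castRingHom (ZMod 3)) 3 = 0 := by decide
    rw [this, map_zero]
  have hm := congrArg (Polynomial.map (Int.castRingHom (ZMod 3))) hZ
  rw [map_cyclotomic, Polynomial.map_add, Polynomial.map_mul, Polynomial.map_mul, h3, zero_mul,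
    add_zero, cubic_map_three] at hm
  exact ⟨_, hm⟩

/-- The primes above `3` in `ℚ(ζ₁₃)` are principal: `(3, ζ³ - ζ - 1) = (ζ³ - ζ - 1)`. -/
theorem cert_thirteen_3 (K : Type*) [Field K] [NumberField K] [IsCyclotomicExtension {13} ℚ K]
    [Fact (Nat.Prime 13)] [Fact (Nat.Prime 3)] (B : ℕ) :
    ∃ P ∈ primesOver (span {((3 : ℕ) : ℤ)}) (𝓞 K),
      B < 3 ^ P.inertiaDeg ℤ ∨ Submodule.IsPrincipal P := by
  have hΦ := zetaInt_sum_thirteen K
  have hmem := span_pair_mem_primesOver 13 K 3 (X ^ 3 - X - 1)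
    (by rw [cubic_map_three]; exact cubic_irreducible_three)
    (by rw [cubic_map_three]; exact cubic_monic_three)
    (by rw [cubic_map_three]; exact cubic_dvd_three)
  have hev : aeval (zetaInt 13 K) (X ^ 3 - X - 1 : ℤ[X]) = zetaInt 13 K ^ 3 - zetaInt 13 K - 1 := by
    simp
  rw [hev] at hmem
  refine ⟨_, hmem, Or.inr ⟨⟨zetaInt 13 K ^ 3 - zetaInt 13 K - 1, ?_⟩⟩⟩
  refine span_pair_eq_span_singleton _ _ (zetaInt 13 K ^ 3 - zetaInt 13 K - 1)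
    (1 + zetaInt 13 K ^ 2 + zetaInt 13 K ^ 3 + 2 * zetaInt 13 K ^ 5 + zetaInt 13 K ^ 7 + 2 * zetaInt 13 K ^ 8
      - zetaInt 13 K ^ 9 + 3 * zetaInt 13 K ^ 10) 1 1 0 ?_ ?_ ?_
  · generalize zetaInt 13 K = θ at hΦ ⊢
    push_cast
    linear_combination (-4 + 3 * θ) * hΦ
  · ring
  · ring

/-- The primes above `53` in `ℚ(ζ₁₃)` are principal. -/
theorem cert_thirteen_53 (K : Type*) [Field K] [NumberField K] [IsCyclotomicExtension {13} ℚ K]
    [Fact (Nat.Prime 13)] [Fact (Nat.Prime 53)] (B : ℕ) :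
    ∃ P ∈ primesOver (span {((53 : ℕ) : ℤ)}) (𝓞 K),
      B < 53 ^ P.inertiaDeg ℤ ∨ Submodule.IsPrincipal P := by
  have hΦ := zetaInt_sum_thirteen K
  refine exists_principal_of_cert 13 K B 53 (-17) (by decide)
    (1 + zetaInt 13 K + zetaInt 13 K ^ 3)
    (1 - 24 * zetaInt 13 K - 35 * zetaInt 13 K ^ 2 - 25 * zetaInt 13 K ^ 3 - 10 * zetaInt 13 K ^ 4
      - 14 * zetaInt 13 K ^ 5 - 20 * zetaInt 13 K ^ 6 - 29 * zetaInt 13 K ^ 7 - 16 * zetaInt 13 K ^ 8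
      - 23 * zetaInt 13 K ^ 9 - 7 * zetaInt 13 K ^ 10 - 36 * zetaInt 13 K ^ 11)
    (1 - 7 * zetaInt 13 K - 11 * zetaInt 13 K ^ 2 - 8 * zetaInt 13 K ^ 3 - 3 * zetaInt 13 K ^ 4
      - 4 * zetaInt 13 K ^ 5 - 6 * zetaInt 13 K ^ 6 - 9 * zetaInt 13 K ^ 7 - 5 * zetaInt 13 K ^ 8
      - 7 * zetaInt 13 K ^ 9 - 2 * zetaInt 13 K ^ 10 - 11 * zetaInt 13 K ^ 11)
    (290 - 17 * zetaInt 13 K + zetaInt 13 K ^ 2) (-93) ?_ ?_ ?_
  · generalize zetaInt 13 K = θ at hΦ ⊢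
    push_cast
    linear_combination (-52 + 29 * θ - 36 * θ ^ 2) * hΦ
  · generalize zetaInt 13 K = θ at hΦ ⊢
    push_cast
    linear_combination (-16 + 9 * θ - 11 * θ ^ 2) * hΦ
  · push_cast
    ring

/-- The primes above `79` in `ℚ(ζ₁₃)` are principal. -/
theorem cert_thirteen_79 (K : Type*) [Field K] [NumberField K] [IsCyclotomicExtension {13} ℚ K]
    [Fact (Nat.Prime 13)] [Fact (Nat.Prime 79)] (B : ℕ) :
    ∃ P ∈ primesOver (span {((79 : ℕ) : ℤ)}) (𝓞 K),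
      B < 79 ^ P.inertiaDeg ℤ ∨ Submodule.IsPrincipal P := by
  have hΦ := zetaInt_sum_thirteen K
  refine exists_principal_of_cert 13 K B 79 (-15) (by decide)
    (1 + zetaInt 13 K - zetaInt 13 K ^ 4)
    (24 - 25 * zetaInt 13 K - 27 * zetaInt 13 K ^ 2 + 10 * zetaInt 13 K ^ 3 - 3 * zetaInt 13 K ^ 4
      - 39 * zetaInt 13 K ^ 5 - 5 * zetaInt 13 K ^ 6 - 2 * zetaInt 13 K ^ 7 - 18 * zetaInt 13 K ^ 8
      - 38 * zetaInt 13 K ^ 9 + 16 * zetaInt 13 K ^ 10 - 35 * zetaInt 13 K ^ 11)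
    (5 - 4 * zetaInt 13 K - 5 * zetaInt 13 K ^ 2 + 2 * zetaInt 13 K ^ 3 - 7 * zetaInt 13 K ^ 5
      - zetaInt 13 K ^ 6 - 3 * zetaInt 13 K ^ 8 - 7 * zetaInt 13 K ^ 9 + 3 * zetaInt 13 K ^ 10 - 6 * zetaInt 13 K ^ 11)
    (3376 - 225 * zetaInt 13 K + 15 * zetaInt 13 K ^ 2 - zetaInt 13 K ^ 3) (-641) ?_ ?_ ?_
  · generalize zetaInt 13 K = θ at hΦ ⊢
    push_cast
    linear_combination (-55 + 54 * θ - 51 * θ ^ 2 + 35 * θ ^ 3) * hΦ
  · generalize zetaInt 13 K = θ at hΦ ⊢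
    push_cast
    linear_combination (-10 + 10 * θ - 9 * θ ^ 2 + 6 * θ ^ 3) * hΦ
  · push_cast
    ring

/-- The primes above `131` in `ℚ(ζ₁₃)` are principal. -/
theorem cert_thirteen_131 (K : Type*) [Field K] [NumberField K] [IsCyclotomicExtension {13} ℚ K]
    [Fact (Nat.Prime 13)] [Fact (Nat.Prime 131)] (B : ℕ) :
    ∃ P ∈ primesOver (span {((131 : ℕ) : ℤ)}) (𝓞 K),
      B < 131 ^ P.inertiaDeg ℤ ∨ Submodule.IsPrincipal P := by
  have hΦ := zetaInt_sum_thirteen K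
  refine exists_principal_of_cert 13 K B 131 (-51) (by decide)
    (1 - zetaInt 13 K - zetaInt 13 K ^ 3)
    (111 + 78 * zetaInt 13 K + 17 * zetaInt 13 K ^ 2 + 67 * zetaInt 13 K ^ 3 + 84 * zetaInt 13 K ^ 4
      + 40 * zetaInt 13 K ^ 5 + 46 * zetaInt 13 K ^ 6 + 69 * zetaInt 13 K ^ 7 + 48 * zetaInt 13 K ^ 8
      + 33 * zetaInt 13 K ^ 9 + 41 * zetaInt 13 K ^ 10 + 28 * zetaInt 13 K ^ 11)
    (43 + 31 * zetaInt 13 K + 7 * zetaInt 13 K ^ 2 + 26 * zetaInt 13 K ^ 3 + 33 * zetaInt 13 K ^ 4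
      + 16 * zetaInt 13 K ^ 5 + 18 * zetaInt 13 K ^ 6 + 27 * zetaInt 13 K ^ 7 + 19 * zetaInt 13 K ^ 8
      + 13 * zetaInt 13 K ^ 9 + 16 * zetaInt 13 K ^ 10 + 11 * zetaInt 13 K ^ 11)
    (-2602 + 51 * zetaInt 13 K - zetaInt 13 K ^ 2) (1013) ?_ ?_ ?_
  · generalize zetaInt 13 K = θ at hΦ ⊢
    push_cast
    linear_combination (-20 - 13 * θ - 28 * θ ^ 2) * hΦ
  · generalize zetaInt 13 K = θ at hΦ ⊢
    push_cast
    linear_combination (-8 - 5 * θ - 11 * θ ^ 2) * hΦ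
  · push_cast
    ring

/-- The primes above `157` in `ℚ(ζ₁₃)` are principal. -/
theorem cert_thirteen_157 (K : Type*) [Field K] [NumberField K] [IsCyclotomicExtension {13} ℚ K]
    [Fact (Nat.Prime 13)] [Fact (Nat.Prime 157)] (B : ℕ) :
    ∃ P ∈ primesOver (span {((157 : ℕ) : ℤ)}) (𝓞 K),
      B < 157 ^ P.inertiaDeg ℤ ∨ Submodule.IsPrincipal P := by
  have hΦ := zetaInt_sum_thirteen K
  refine exists_principal_of_cert 13 K B 157 (75) (by decide)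
    (1 - zetaInt 13 K + zetaInt 13 K ^ 2 + zetaInt 13 K ^ 4)
    (89 + 86 * zetaInt 13 K + 42 * zetaInt 13 K ^ 2 + 77 * zetaInt 13 K ^ 3 + 67 * zetaInt 13 K ^ 4
      + 25 * zetaInt 13 K ^ 5 + 37 * zetaInt 13 K ^ 6 + 56 * zetaInt 13 K ^ 7 + 73 * zetaInt 13 K ^ 8
      + 113 * zetaInt 13 K ^ 9 + 124 * zetaInt 13 K ^ 10 + 76 * zetaInt 13 K ^ 11)
    (-43 - 41 * zetaInt 13 K - 20 * zetaInt 13 K ^ 2 - 37 * zetaInt 13 K ^ 3 - 32 * zetaInt 13 K ^ 4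
      - 12 * zetaInt 13 K ^ 5 - 18 * zetaInt 13 K ^ 6 - 27 * zetaInt 13 K ^ 7 - 35 * zetaInt 13 K ^ 8
      - 54 * zetaInt 13 K ^ 9 - 59 * zetaInt 13 K ^ 10 - 36 * zetaInt 13 K ^ 11)
    (421949 + 5626 * zetaInt 13 K + 75 * zetaInt 13 K ^ 2 + zetaInt 13 K ^ 3) (201568) ?_ ?_ ?_
  · generalize zetaInt 13 K = θ at hΦ ⊢
    push_cast
    linear_combination (-68 + 65 * θ + 48 * θ ^ 2 + 76 * θ ^ 3) * hΦ
  · generalize zetaInt 13 K = θ at hΦ ⊢
    push_cast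
    linear_combination (32 - 31 * θ - 23 * θ ^ 2 - 36 * θ ^ 3) * hΦ
  · push_cast
    ring

theorem classify_primes_thirteen : ∀ q : ℕ, q ≤ 306 → q.Prime →
    q = 3 ∨ q = 13 ∨ q = 53 ∨ q = 79 ∨ q = 131 ∨ q = 157 ∨
      (q ≠ 13 ∧ ∃ f ∈ Finset.range 10, (∀ j ∈ Finset.Ioo 0 f, q ^ j % 13 ≠ 1) ∧ 306 < q ^ f) := by
  decide +kernel

/-- `ℤ[ζ₁₃]` is a principal ideal domain. -/
theorem pid_thirteen (K : Type*) [Field K] [NumberField K] [IsCyclotomicExtension {13} ℚ K] :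
    IsPrincipalIdealRing (𝓞 K) := by
  have hp13 : Fact (Nat.Prime 13) := ⟨by norm_num⟩
  have hgal : IsGalois ℚ K := IsCyclotomicExtension.isGalois {13} ℚ K
  apply RingOfIntegers.isPrincipalIdealRing_of_isPrincipal_of_lt_or_isPrincipal_of_mem_primesOver_of_mem_Icc
  intro q hq hqprime
  have hB := minkowski_thirteen K
  rw [Finset.mem_Icc] at hq
  have hq306 : q ≤ 306 := hq.2.trans hB
  have hqf : Fact q.Prime := ⟨hqprime⟩
  suffices h : ∃ P ∈ primesOver (span {(q : ℤ)}) (𝓞 K),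
      306 < q ^ P.inertiaDeg ℤ ∨ Submodule.IsPrincipal P by
    obtain ⟨P, hP, h | h⟩ := h
    · exact ⟨P, hP, Or.inl (lt_of_le_of_lt hB h)⟩
    · exact ⟨P, hP, Or.inr h⟩
  rcases classify_primes_thirteen q hq306 hqprime with
    rfl | rfl | rfl | rfl | rfl | rfl | ⟨hq13, f, -, hf, hlt⟩
  · exact cert_thirteen_3 K 306
  · exact exists_principal_self 13 K 306
  · exact cert_thirteen_53 K 306
  · exact cert_thirteen_79 K 306
  · exact cert_thirteen_131 K 306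
  · exact cert_thirteen_157 K 306
  · exact exists_inertia_of_order 13 K 306 q f hq13 hf hlt

end Fermat.Agent.S11.PID
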