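import Mathlib

/-!
# Sophie Germain's theorem (the "first case") for the exponents 5, 7, 11, 13

For an odd prime `p` and an auxiliary prime `q` such that

* `x ^ p + y ^ p + z ^ p = 0` in `ZMod q` forces `x * y * z = 0`, and
* `p` is not a `p`-th power in `ZMod q`,

every solution of `a ^ p + b ^ p = c ^ p` in coprime integers has `p ∣ a * b * c`.
We apply this with `(p, q) = (5, 11), (7, 29), (11, 23), (13, 53)`.
-/

set_option autoImplicit false

namespace Fermat.Agent.S11.SophieGermain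

open Finset

/-- The cofactor `(y ^ n + z ^ n) / (y + z)` (for odd `n`). -/
def cof (n : ℕ) (y z : ℤ) : ℤ := ∑ i ∈ range n, y ^ i * (-z) ^ (n - 1 - i)

theorem cof_mul {n : ℕ} (hn : Odd n) (y z : ℤ) : cof n y z * (y + z) = y ^ n + z ^ n := by
  have h := (Commute.all y (-z)).geom_sum₂_mul n
  rw [sub_neg_eq_add, hn.neg_pow, sub_neg_eq_add] at h
  exact h

theorem cast_cof {R : Type*} [CommRing R] (n : ℕ) (y z : ℤ) (h : (y : R) + (z : R) = 0) :
    ((cof n y z : ℤ) : R) = (n : R) * (y : R) ^ (n - 1) := by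
  have hz : -(z : R) = (y : R) := by linear_combination -h
  unfold cof
  push_cast
  rw [hz]
  exact geom_sum₂_self (y : R) n

/-- If `x ^ p + y ^ p + z ^ p = 0`, `y, z` are coprime and `p ∤ x`, then `y + z` and the cofactor
are both `p`-th powers. -/
theorem exists_pow_eq {p : ℕ} (hp : p.Prime) (hp2 : p ≠ 2) {x y z : ℤ} (hyz : IsCoprime y z)
    (hpx : ¬ (p : ℤ) ∣ x) (h : x ^ p + y ^ p + z ^ p = 0) :
    (∃ A : ℤ, y + z = A ^ p) ∧ ∃ α : ℤ, cof p y z = α ^ p := by
  have hodd : Odd p := hp.odd_of_ne_two hp2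
  have hmul : (y + z) * cof p y z = (-x) ^ p := by
    rw [mul_comm, cof_mul hodd, hodd.neg_pow]; linarith
  have hcop : IsCoprime (y + z) (cof p y z) := by
    rw [Int.isCoprime_iff_gcd_eq_one]
    by_contra hne
    obtain ⟨r, hr, hrdvd⟩ := Nat.exists_prime_and_dvd hne
    have : Fact r.Prime := ⟨hr⟩
    have hr1 : (r : ℤ) ∣ y + z :=
      (Int.natCast_dvd_natCast.mpr hrdvd).trans (Int.gcd_dvd_left _ _)
    have hr2 : (r : ℤ) ∣ cof p y z :=
      (Int.natCast_dvd_natCast.mpr hrdvd).trans (Int.gcd_dvd_right _ _)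
    have h1 : ((y : ZMod r)) + (z : ZMod r) = 0 := by
      have := (ZMod.intCast_zmod_eq_zero_iff_dvd (y + z) r).mpr hr1
      push_cast at this
      exact this
    have h2 : ((cof p y z : ℤ) : ZMod r) = 0 := (ZMod.intCast_zmod_eq_zero_iff_dvd _ r).mpr hr2
    rw [cast_cof p y z h1] at h2
    rcases mul_eq_zero.mp h2 with h3 | h3
    · -- `r = p`
      have hrp : r = p := by
        have : r ∣ p := (ZMod.natCast_eq_zero_iff p r).mp h3
        exact (Nat.prime_dvd_prime_iff_eq hr hp).mp this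
      subst hrp
      have h4 : (r : ℤ) ∣ (-x) ^ r := by
        rw [← hmul]; exact Dvd.dvd.mul_right hr1 _
      have h5 : (r : ℤ) ∣ -x := Int.Prime.dvd_pow' hr h4
      exact hpx ((dvd_neg).mp h5)
    · -- `r ∣ y`, hence `r ∣ z`
      have hy0 : (y : ZMod r) = 0 := pow_eq_zero_iff (by
        have := hp.two_le; omega) |>.mp h3
      have hz0 : (z : ZMod r) = 0 := by rw [hy0, zero_add] at h1; exact h1
      have hy : (r : ℤ) ∣ y := (ZMod.intCast_zmod_eq_zero_iff_dvd y r).mp hy0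
      have hz : (r : ℤ) ∣ z := (ZMod.intCast_zmod_eq_zero_iff_dvd z r).mp hz0
      have hunit : IsUnit (r : ℤ) := hyz.isUnit_of_dvd' hy hz
      have : (r : ℤ).natAbs = 1 := Int.isUnit_iff_natAbs_eq.mp hunit
      rw [Int.natAbs_natCast] at this
      exact hr.one_lt.ne' this
  exact Int.eq_pow_of_mul_eq_pow_odd hcop hodd hmul

/-- The heart of Sophie Germain's argument: the auxiliary prime cannot divide `x`. -/
theorem core {p q : ℕ} (hp : p.Prime) (hp2 : p ≠ 2) (hq : q.Prime)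
    (h1 : ∀ x y z : ZMod q, x ^ p + y ^ p + z ^ p = 0 → x * y * z = 0)
    (h2 : ∀ x : ZMod q, x ^ p ≠ (p : ZMod q))
    {x y z : ℤ} (hxy : IsCoprime x y) (hyz : IsCoprime y z) (hzx : IsCoprime z x)
    (hpx : ¬ (p : ℤ) ∣ x) (hpy : ¬ (p : ℤ) ∣ y) (hpz : ¬ (p : ℤ) ∣ z)
    (h : x ^ p + y ^ p + z ^ p = 0) (hqx : (q : ℤ) ∣ x) : False := by
  have : Fact q.Prime := ⟨hq⟩
  have hodd : Odd p := hp.odd_of_ne_two hp2
  have hp0 : p ≠ 0 := hp.ne_zero
  obtain ⟨⟨A, hA⟩, ⟨α, hα⟩⟩ := exists_pow_eq hp hp2 hyz hpx h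
  obtain ⟨⟨B, hB⟩, -⟩ := exists_pow_eq hp hp2 hzx hpy (x := y) (y := z) (z := x) (by linarith)
  obtain ⟨⟨C, hC⟩, -⟩ := exists_pow_eq hp hp2 hxy hpz (x := z) (y := x) (z := y) (by linarith)
  have hx0 : (x : ZMod q) = 0 := (ZMod.intCast_zmod_eq_zero_iff_dvd x q).mpr hqx
  have hA' : (y : ZMod q) + (z : ZMod q) = (A : ZMod q) ^ p := by exact_mod_cast congrArg (Int.cast : ℤ → ZMod q) hA
  have hB' : (z : ZMod q) + (x : ZMod q) = (B : ZMod q) ^ p := by exact_mod_cast congrArg (Int.cast : ℤ → ZMod q) hB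
  have hC' : (x : ZMod q) + (y : ZMod q) = (C : ZMod q) ^ p := by exact_mod_cast congrArg (Int.cast : ℤ → ZMod q) hC
  have hα' : ((cof p y z : ℤ) : ZMod q) = (α : ZMod q) ^ p := by exact_mod_cast congrArg (Int.cast : ℤ → ZMod q) hα
  rw [hx0] at hB' hC'
  rw [add_zero] at hB'
  rw [zero_add] at hC'
  -- no unit of `ℤ` is divisible by `q`
  have hnotunit : ∀ {u v : ℤ}, IsCoprime u v → (u : ZMod q) = 0 → (v : ZMod q) = 0 → False := by
    intro u v huv hu hv
    have hu' : (q : ℤ) ∣ u := (ZMod.intCast_zmod_eq_zero_iff_dvd u q).mp hu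
    have hv' : (q : ℤ) ∣ v := (ZMod.intCast_zmod_eq_zero_iff_dvd v q).mp hv
    have hunit : IsUnit (q : ℤ) := huv.isUnit_of_dvd' hu' hv'
    have : (q : ℤ).natAbs = 1 := Int.isUnit_iff_natAbs_eq.mp hunit
    rw [Int.natAbs_natCast] at this
    exact hq.one_lt.ne' this
  have hsum : (B : ZMod q) ^ p + (C : ZMod q) ^ p + (-(A : ZMod q)) ^ p = 0 := by
    rw [hodd.neg_pow, ← hA', ← hB', ← hC']; ring
  have hprod := h1 _ _ _ hsum
  rcases mul_eq_zero.mp hprod with hBC | hA0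
  · rcases mul_eq_zero.mp hBC with hB0 | hC0
    · -- `q ∣ z`
      rw [hB0, zero_pow hp0] at hB'
      exact hnotunit hzx hB' hx0
    · -- `q ∣ y`
      rw [hC0, zero_pow hp0] at hC'
      exact hnotunit hxy hx0 hC'
  · -- `q ∣ y + z`
    have hA0' : (A : ZMod q) = 0 := neg_eq_zero.mp hA0
    rw [hA0', zero_pow hp0] at hA'
    have hy0 : (y : ZMod q) ≠ 0 := fun hy0 => hnotunit hxy hx0 hy0
    have hC0 : (C : ZMod q) ≠ 0 := by
      intro hC0
      rw [hC0, zero_pow hp0] at hC'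
      exact hy0 hC'
    rw [cast_cof p y z hA', hC'] at hα'
    -- `p = (α / C ^ (p - 1)) ^ p`
    apply h2 ((α : ZMod q) / (C : ZMod q) ^ (p - 1))
    rw [div_pow, ← hα', ← pow_mul, mul_comm p (p - 1), pow_mul]
    exact mul_div_cancel_right₀ _ (pow_ne_zero _ (pow_ne_zero _ hC0))

/-- **Sophie Germain's theorem** with an auxiliary prime `q`. -/
theorem sophie_germain {p q : ℕ} (hp : p.Prime) (hp2 : p ≠ 2) (hq : q.Prime)
    (h1 : ∀ x y z : ZMod q, x ^ p + y ^ p + z ^ p = 0 → x * y * z = 0)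
    (h2 : ∀ x : ZMod q, x ^ p ≠ (p : ZMod q))
    (a b c : ℤ) (hab : IsCoprime a b) (h : a ^ p + b ^ p = c ^ p) : (p : ℤ) ∣ a * b * c := by
  have : Fact q.Prime := ⟨hq⟩
  have hodd : Odd p := hp.odd_of_ne_two hp2
  have hppos : 0 < p := hp.pos
  by_contra hndvd
  have hpa : ¬ (p : ℤ) ∣ a := fun hd => hndvd ((hd.mul_right b).mul_right c)
  have hpb : ¬ (p : ℤ) ∣ b := fun hd => hndvd ((hd.mul_left a).mul_right c)
  have hpc : ¬ (p : ℤ) ∣ c := fun hd => hndvd (hd.mul_left (a * b))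
  have hpc' : ¬ (p : ℤ) ∣ -c := fun hd => hpc (dvd_neg.mp hd)
  -- pairwise coprimality
  have hac : IsCoprime a c := by
    have h3 : IsCoprime a (b ^ p + a * a ^ (p - 1)) :=
      (IsCoprime.pow_right hab).add_mul_left_right _
    have h4 : b ^ p + a * a ^ (p - 1) = c ^ p := by
      rw [← pow_succ', Nat.sub_add_cancel hppos]; linarith
    rw [h4] at h3
    exact (IsCoprime.pow_right_iff hppos).mp h3
  have hbc : IsCoprime b c := by
    have h3 : IsCoprime b (a ^ p + b * b ^ (p - 1)) :=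
      (IsCoprime.pow_right hab.symm).add_mul_left_right _
    have h4 : a ^ p + b * b ^ (p - 1) = c ^ p := by
      rw [← pow_succ', Nat.sub_add_cancel hppos]; linarith
    rw [h4] at h3
    exact (IsCoprime.pow_right_iff hppos).mp h3
  have hbc' : IsCoprime b (-c) := hbc.neg_right
  have hca' : IsCoprime (-c) a := hac.symm.neg_left
  have heq : a ^ p + b ^ p + (-c) ^ p = 0 := by rw [hodd.neg_pow]; linarith
  have hmod : (a : ZMod q) ^ p + (b : ZMod q) ^ p + ((-c : ℤ) : ZMod q) ^ p = 0 := by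
    exact_mod_cast congrArg (Int.cast : ℤ → ZMod q) heq
  rcases mul_eq_zero.mp (h1 _ _ _ hmod) with hab0 | hc0
  · rcases mul_eq_zero.mp hab0 with ha0 | hb0
    · exact core hp hp2 hq h1 h2 hab hbc' hca' hpa hpb hpc' heq
        ((ZMod.intCast_zmod_eq_zero_iff_dvd a q).mp ha0)
    · exact core hp hp2 hq h1 h2 hbc' hca' hab hpb hpc' hpa (by linarith)
        ((ZMod.intCast_zmod_eq_zero_iff_dvd b q).mp hb0)
  · exact core hp hp2 hq h1 h2 hca' hab hbc' hpc' hpa hpb (by linarith)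
      ((ZMod.intCast_zmod_eq_zero_iff_dvd (-c) q).mp hc0)

/-! ### The four instances -/

/-- First case for auxiliary primes `q = 2 p + 1`: `p`-th powers are `0, 1, -1`. -/
theorem h1_of_pow_mem {p q : ℕ} (hq : q.Prime)
    (hpow : ∀ x : ZMod q, x ^ p = 0 ∨ x ^ p = 1 ∨ x ^ p = -1)
    (h3 : (3 : ZMod q) ≠ 0) (h1' : (1 : ZMod q) ≠ 0) :
    ∀ x y z : ZMod q, x ^ p + y ^ p + z ^ p = 0 → x * y * z = 0 := by
  have : Fact q.Prime := ⟨hq⟩
  intro x y z h
  by_contra hne
  have hx : x ≠ 0 := fun h0 => hne (by rw [h0]; ring)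
  have hy : y ≠ 0 := fun h0 => hne (by rw [h0]; ring)
  have hz : z ≠ 0 := fun h0 => hne (by rw [h0]; ring)
  have hx' : x ^ p ≠ 0 := pow_ne_zero _ hx
  have hy' : y ^ p ≠ 0 := pow_ne_zero _ hy
  have hz' : z ^ p ≠ 0 := pow_ne_zero _ hz
  have hm3 : (-3 : ZMod q) ≠ 0 := neg_ne_zero.mpr h3
  have hm1 : (-1 : ZMod q) ≠ 0 := neg_ne_zero.mpr h1'
  rcases (hpow x).resolve_left hx' with hx1 | hx1 <;>
  rcases (hpow y).resolve_left hy' with hy1 | hy1 <;>
  rcases (hpow z).resolve_left hz' with hz1 | hz1 <;>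
  rw [hx1, hy1, hz1] at h
  · exact h3 (by linear_combination h)
  · exact h1' (by linear_combination h)
  · exact h1' (by linear_combination h)
  · exact h1' (by linear_combination -h)
  · exact h1' (by linear_combination h)
  · exact h1' (by linear_combination -h)
  · exact h1' (by linear_combination -h)
  · exact h3 (by linear_combination -h)

theorem caseI_5 (a b c : ℤ) (hab : IsCoprime a b) (h : a ^ 5 + b ^ 5 = c ^ 5) :
    (5 : ℤ) ∣ a * b * c := by
  exact_mod_cast sophie_germain (p := 5) (q := 11) (by norm_num) (by norm_num) (by norm_num)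
    (h1_of_pow_mem (by norm_num) (by decide) (by decide) (by decide)) (by decide) a b c hab h

theorem caseI_11 (a b c : ℤ) (hab : IsCoprime a b) (h : a ^ 11 + b ^ 11 = c ^ 11) :
    (11 : ℤ) ∣ a * b * c := by
  exact_mod_cast sophie_germain (p := 11) (q := 23) (by norm_num) (by norm_num) (by norm_num)
    (h1_of_pow_mem (by norm_num) (by decide) (by decide) (by decide)) (by decide) a b c hab h

/-- First case for auxiliary primes `q = 4 p + 1`: nonzero `p`-th powers are fourth roots of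
unity `1, -1, i, -i`. -/
theorem h1_of_pow_mem_four {p q : ℕ} (hq : q.Prime) (i : ZMod q)
    (hpow : ∀ x : ZMod q, x ^ p = 0 ∨ x ^ p = 1 ∨ x ^ p = -1 ∨ x ^ p = i ∨ x ^ p = -i)
    (hsum : ∀ u ∈ ({1, -1, i, -i} : Finset (ZMod q)), ∀ v ∈ ({1, -1, i, -i} : Finset (ZMod q)),
      ∀ w ∈ ({1, -1, i, -i} : Finset (ZMod q)), u + v + w ≠ 0) :
    ∀ x y z : ZMod q, x ^ p + y ^ p + z ^ p = 0 → x * y * z = 0 := by
  have : Fact q.Prime := ⟨hq⟩
  intro x y z h
  by_contra hne
  have hx : x ≠ 0 := fun h0 => hne (by rw [h0]; ring)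
  have hy : y ≠ 0 := fun h0 => hne (by rw [h0]; ring)
  have hz : z ≠ 0 := fun h0 => hne (by rw [h0]; ring)
  have hmem : ∀ t : ZMod q, t ≠ 0 → t ^ p ∈ ({1, -1, i, -i} : Finset (ZMod q)) := by
    intro t ht
    have ht' : t ^ p ≠ 0 := pow_ne_zero _ ht
    simp only [Finset.mem_insert, Finset.mem_singleton]
    exact (hpow t).resolve_left ht'
  exact hsum _ (hmem x hx) _ (hmem y hy) _ (hmem z hz) h

theorem caseI_7 (a b c : ℤ) (hab : IsCoprime a b) (h : a ^ 7 + b ^ 7 = c ^ 7) :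
    (7 : ℤ) ∣ a * b * c := by
  exact_mod_cast sophie_germain (p := 7) (q := 29) (by norm_num) (by norm_num) (by norm_num)
    (h1_of_pow_mem_four (by norm_num) 12 (by decide) (by decide)) (by decide) a b c hab h

set_option maxRecDepth 100000 in
theorem caseI_13 (a b c : ℤ) (hab : IsCoprime a b) (h : a ^ 13 + b ^ 13 = c ^ 13) :
    (13 : ℤ) ∣ a * b * c := by
  exact_mod_cast sophie_germain (p := 13) (q := 53) (by norm_num) (by norm_num) (by norm_num)
    (h1_of_pow_mem_four (by norm_num) 23 (by decide) (by decide)) (by decide) a b c hab h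

end Fermat.Agent.S11.SophieGermain
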