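import Fermat.Agent.S11.CaseII

/-!
# Fermat's Last Theorem for a prime exponent `p`, assembled from its pieces

* the first case (`p ∤ a * b * c`), e.g. by Sophie Germain's theorem;
* `ℤ[ζ_p]` is a PID;
* Kummer's lemma for `p`.
-/

set_option autoImplicit false

namespace Fermat.Agent.S11

open NumberField

/-- If `a ^ p + b ^ p = c ^ p` with `a`, `b` coprime then `b`, `c` are coprime. -/
theorem isCoprime_right_of_eq {p : ℕ} (hp : 0 < p) {a b c : ℤ} (hab : IsCoprime a b)
    (h : a ^ p + b ^ p = c ^ p) : IsCoprime c b := by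
  have h1 : IsCoprime (a ^ p) b := (IsCoprime.pow_left_iff hp).2 hab
  have h2 : c ^ p = a ^ p + b * b ^ (p - 1) := by
    rw [← h]
    congr 1
    rw [← pow_succ', Nat.sub_add_cancel hp]
  have h3 : IsCoprime (c ^ p) b := by
    rw [h2]
    exact (IsCoprime.add_mul_left_left_iff).2 h1
  exact (IsCoprime.pow_left_iff hp).1 h3

/-- Fermat's Last Theorem for the exponent `p`, in coprime form, from the first case,
the PID property of `ℤ[ζ_p]` and Kummer's lemma. -/
theorem flt_of_pieces (p : ℕ) [hp : Fact p.Prime] (hp2 : p ≠ 2) (K : Type) [Field K]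
    [NumberField K] [IsCyclotomicExtension {p} ℚ K]
    (hPID : IsPrincipalIdealRing (𝓞 K)) (hKL : KummerLemmaHolds p K)
    (hI : ∀ a b c : ℤ, IsCoprime a b → a ^ p + b ^ p = c ^ p → (p : ℤ) ∣ a * b * c)
    (a b c : ℤ) (ha : a ≠ 0) (hb : b ≠ 0) (hc : c ≠ 0) (hab : IsCoprime a b)
    (h : a ^ p + b ^ p = c ^ p) : False := by
  have hpZ : Prime (p : ℤ) := Nat.prime_iff_prime_int.1 hp.out
  have hodd : Odd p := hp.out.odd_of_ne_two hp2
  have hpos : 0 < p := hp.out.pos
  have hcb : IsCoprime c b := isCoprime_right_of_eq hpos hab h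
  have hca : IsCoprime c a := isCoprime_right_of_eq hpos hab.symm (by rw [add_comm]; exact h)
  rcases (hpZ.dvd_mul.1 (hI a b c hab h)) with hpab | hpc
  · rcases hpZ.dvd_mul.1 hpab with hpa | hpb
    · -- `c ^ p + (-b) ^ p = a ^ p`
      refine caseII p K hp2 hKL c (-b) a hcb.neg_right ha hpa ?_
      rw [hodd.neg_pow]
      linear_combination -h
    · -- `c ^ p + (-a) ^ p = b ^ p`
      refine caseII p K hp2 hKL c (-a) b hca.neg_right hb hpb ?_
      rw [hodd.neg_pow]
      linear_combination -h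
  · exact caseII p K hp2 hKL a b c hab hc hpc h

end Fermat.Agent.S11
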