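-- S10/S11 helper (piece D): Kummer's lemma for p = 11 (certificate for KummerGeneric).
import Fermat.Agent.S11.KummerGeneric

set_option autoImplicit false

open Polynomial NumberField

namespace Fermat.Agent.S11.Kummer

/-- Coefficients (mod `T^9`) of the logarithmic derivatives of `ζ, 1+ζ, …` for `p = 11`. -/
def matM11 : Fin 5 → Fin 9 → ℕ :=
  ![![1, 10, 1, 10, 1, 10, 1, 10, 1],
    ![6, 8, 7, 2, 10, 6, 8, 7, 2],
    ![1, 7, 0, 5, 6, 7, 2, 3, 0],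
    ![7, 8, 1, 8, 7, 6, 4, 0, 0],
    ![2, 0, 10, 3, 0, 6, 5, 6, 5]]

/-- A right inverse of `matM11` modulo `11`. -/
def matN11 : Fin 9 → Fin 5 → ℕ :=
  ![![9, 6, 7, 0, 2],
    ![1, 8, 7, 4, 2],
    ![0, 0, 0, 0, 0],
    ![9, 0, 1, 3, 1],
    ![0, 0, 0, 0, 0],
    ![0, 8, 5, 0, 1],
    ![0, 0, 0, 0, 0],
    ![9, 1, 5, 4, 9],
    ![0, 0, 0, 0, 0]]

theorem matM11_mul_matN11 : ∀ k k' : Fin 5,
    (∑ i, matM11 k i * matN11 i k') % 11 = if k = k' then 1 else 0 := by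
  decide

theorem fact_prime_11 : Fact (Nat.Prime 11) := ⟨by norm_num⟩

/-- **Kummer's lemma for `p = 11`**: a unit of `ℤ[ζ_11]` congruent to a rational integer
modulo `11` is a `11`-th power of a unit. -/
theorem kummer_lemma_11 (K : Type) [Field K] [NumberField K] [IsCyclotomicExtension {11} ℚ K]
    (u : (𝓞 K)ˣ) (h : ∃ n : ℤ, ((11 : ℕ) : 𝓞 K) ∣ (u : 𝓞 K) - n) : ∃ v : (𝓞 K)ˣ, u = v ^ 11 := by
  have := fact_prime_11
  have ht : tT 11 ^ 9 = 0 := tT_pow 11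
  have hp0 : (11 : TB 11) = 0 := by
    have := natCast_p_TB 11
    simpa using this
  refine kummer_of_cert (p := 11) (by norm_num) K (n := 5) (m := 9) rfl (by norm_num)
    matM11 matN11 matM11_mul_matN11 ?_ u h
  intro k
  fin_cases k
  · simp [matM11, Fin.sum_univ_succ, Finset.sum_range_succ]
    linear_combination ((1)) * ht + ((1) * tT 11 + (1) * tT 11 ^ 2 + (1) * tT 11 ^ 3 + (1) * tT 11 ^ 4 + (1) * tT 11 ^ 5 + (1) * tT 11 ^ 6 + (1) * tT 11 ^ 7 + (1) * tT 11 ^ 8) * hp0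
  · simp [matM11, Fin.sum_univ_succ, Finset.sum_range_succ]
    linear_combination ((2)) * ht + ((1) + (2) * tT 11 + (2) * tT 11 ^ 2 + (1) * tT 11 ^ 3 + (2) * tT 11 ^ 4 + (2) * tT 11 ^ 5 + (2) * tT 11 ^ 6 + (2) * tT 11 ^ 7 + (1) * tT 11 ^ 8) * hp0
  · simp [matM11, Fin.sum_univ_succ, Finset.sum_range_succ]
    linear_combination ((3)) * ht + ((2) * tT 11 + (2) * tT 11 ^ 2 + (2) * tT 11 ^ 3 + (3) * tT 11 ^ 4 + (4) * tT 11 ^ 5 + (3) * tT 11 ^ 6 + (2) * tT 11 ^ 7 + (1) * tT 11 ^ 8) * hp0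
  · simp [matM11, Fin.sum_univ_succ, Finset.sum_range_succ]
    linear_combination ((4)) * ht + ((2) + (6) * tT 11 + (7) * tT 11 ^ 2 + (7) * tT 11 ^ 3 + (8) * tT 11 ^ 4 + (9) * tT 11 ^ 5 + (8) * tT 11 ^ 6 + (5) * tT 11 ^ 7 + (2) * tT 11 ^ 8) * hp0
  · simp [matM11, Fin.sum_univ_succ, Finset.sum_range_succ]
    linear_combination ((141) + (85) * tT 11 + (31) * tT 11 ^ 2 + (5) * tT 11 ^ 3) * ht + ((5) * tT 11 ^ 2 + (11) * tT 11 ^ 3 + (12) * tT 11 ^ 4 + (10) * tT 11 ^ 5 + (10) * tT 11 ^ 6 + (13) * tT 11 ^ 7 + (15) * tT 11 ^ 8) * hp0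

end Fermat.Agent.S11.Kummer
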