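import Fermat.Agent.S11.PIDGeneric

set_option autoImplicit false

namespace Fermat.Agent.S11.PID

open NumberField Polynomial Ideal RingOfIntegers IsCyclotomicExtension IsCyclotomicExtension.Rat
open Module InfinitePlace Nat Real

/-- The Minkowski bound of `ℚ(ζ₁₁)` is smaller than `59`. -/
theorem minkowski_eleven (K : Type*) [Field K] [NumberField K] [IsCyclotomicExtension {11} ℚ K] :
    ⌊(4 / π) ^ nrComplexPlaces K *
      ((finrank ℚ K)! / (finrank ℚ K) ^ (finrank ℚ K) * √|discr K|)⌋₊ ≤ 58 := by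
  have : Fact (Nat.Prime 11) := ⟨by norm_num⟩
  rw [discr_prime 11 K, IsCyclotomicExtension.Rat.finrank 11 K,
    nrComplexPlaces_eq_totient_div_two 11,
    totient_prime (by norm_num : Nat.Prime 11)]
  have h1 : (10 : ℕ)! = 3628800 := by decide
  have h2 : |(((-1 : ℤ) ^ ((11 - 1) / 2) * ((11 : ℕ) : ℤ) ^ (11 - 2) : ℤ) : ℝ)| = 2357947691 := by
    norm_num
  have hs : √(2357947691 : ℝ) < 48559 := by
    rw [Real.sqrt_lt' (by norm_num)]
    norm_num
  have hpi : (4 / π) ^ 5 < (4 / 3.1415) ^ 5 := by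
    gcongr
    exact pi_gt_d4
  apply Nat.le_of_lt_succ
  rw [Nat.floor_lt (by positivity)]
  simp only [show (11 - 1) / 2 = 5 from rfl, show 11 - 1 = 10 from rfl, h1, h2]
  calc (4 / π) ^ 5 * (((3628800 : ℕ) : ℝ) / ((10 : ℕ) : ℝ) ^ 10 * √2357947691)
      < (4 / 3.1415) ^ 5 * (((3628800 : ℕ) : ℝ) / ((10 : ℕ) : ℝ) ^ 10 * 48559) := by
        apply mul_lt_mul hpi _ (by positivity) (by positivity)
        apply mul_le_mul_of_nonneg_left hs.le (by positivity)
    _ < ((succ 58 : ℕ) : ℝ) := by norm_num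

/-- The primes above `23` in `ℚ(ζ₁₁)` are principal: `(23, ζ - 4) = (1 + ζ + ζ³)`. -/
theorem cert_eleven_23 (K : Type*) [Field K] [NumberField K] [IsCyclotomicExtension {11} ℚ K]
    [Fact (Nat.Prime 11)] [Fact (Nat.Prime 23)] (B : ℕ) :
    ∃ P ∈ primesOver (span {((23 : ℕ) : ℤ)}) (𝓞 K),
      B < 23 ^ P.inertiaDeg ℤ ∨ Submodule.IsPrincipal P := by
  have hΦ : 1 + zetaInt 11 K + zetaInt 11 K ^ 2 + zetaInt 11 K ^ 3 + zetaInt 11 K ^ 4 +
      zetaInt 11 K ^ 5 + zetaInt 11 K ^ 6 + zetaInt 11 K ^ 7 + zetaInt 11 K ^ 8 +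
      zetaInt 11 K ^ 9 + zetaInt 11 K ^ 10 = 0 := by
    simpa [Finset.sum_range_succ] using zetaInt_sum 11 K
  refine exists_principal_of_cert 11 K B 23 4 (by decide)
    (1 + zetaInt 11 K + zetaInt 11 K ^ 3)
    (-2 - 14 * zetaInt 11 K - 17 * zetaInt 11 K ^ 2 - 12 * zetaInt 11 K ^ 3
      - 5 * zetaInt 11 K ^ 4 - 9 * zetaInt 11 K ^ 5 - 10 * zetaInt 11 K ^ 6
      - 16 * zetaInt 11 K ^ 7 - 6 * zetaInt 11 K ^ 8 - 15 * zetaInt 11 K ^ 9)
    (1 + 3 * zetaInt 11 K + 3 * zetaInt 11 K ^ 2 + 2 * zetaInt 11 K ^ 3 + zetaInt 11 K ^ 4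
      + 2 * zetaInt 11 K ^ 5 + 2 * zetaInt 11 K ^ 6 + 3 * zetaInt 11 K ^ 7 + zetaInt 11 K ^ 8
      + 3 * zetaInt 11 K ^ 9)
    (17 + 4 * zetaInt 11 K + zetaInt 11 K ^ 2) 3 ?_ ?_ ?_
  · generalize zetaInt 11 K = θ at hΦ ⊢
    push_cast
    linear_combination (-25 + 9 * θ - 15 * θ ^ 2) * hΦ
  · generalize zetaInt 11 K = θ at hΦ ⊢
    push_cast
    linear_combination (5 - 2 * θ + 3 * θ ^ 2) * hΦ
  · push_cast
    ring

theorem primes_le_58 (q : ℕ) (hq : q ≤ 58) (hp : q.Prime) :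
    q ∈ ({2, 3, 5, 7, 11, 13, 17, 19, 23, 29, 31, 37, 41, 43, 47, 53} : Finset ℕ) := by
  revert q
  decide

/-- `ℤ[ζ₁₁]` is a principal ideal domain. -/
theorem pid_eleven (K : Type*) [Field K] [NumberField K] [IsCyclotomicExtension {11} ℚ K] :
    IsPrincipalIdealRing (𝓞 K) := by
  have hp11 : Fact (Nat.Prime 11) := ⟨by norm_num⟩
  have hgal : IsGalois ℚ K := IsCyclotomicExtension.isGalois {11} ℚ K
  apply RingOfIntegers.isPrincipalIdealRing_of_isPrincipal_of_lt_or_isPrincipal_of_mem_primesOver_of_mem_Icc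
  intro q hq hqprime
  have hB := minkowski_eleven K
  rw [Finset.mem_Icc] at hq
  have hq58 : q ≤ 58 := hq.2.trans hB
  have hqf : Fact q.Prime := ⟨hqprime⟩
  suffices h : ∃ P ∈ primesOver (span {(q : ℤ)}) (𝓞 K),
      58 < q ^ P.inertiaDeg ℤ ∨ Submodule.IsPrincipal P by
    obtain ⟨P, hP, h | h⟩ := h
    · exact ⟨P, hP, Or.inl (lt_of_le_of_lt hB h)⟩
    · exact ⟨P, hP, Or.inr h⟩
  have hmem := primes_le_58 q hq58 hqprime
  simp only [Finset.mem_insert, Finset.mem_singleton] at hmem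
  rcases hmem with rfl | rfl | rfl | rfl | rfl | rfl | rfl | rfl | rfl | rfl | rfl | rfl | rfl |
    rfl | rfl | rfl
  · exact exists_inertia_of_order 11 K 58 2 6 (by norm_num) (by decide) (by norm_num)
  · exact exists_inertia_of_order 11 K 58 3 4 (by norm_num) (by decide) (by norm_num)
  · exact exists_inertia_of_order 11 K 58 5 3 (by norm_num) (by decide) (by norm_num)
  · exact exists_inertia_of_order 11 K 58 7 3 (by norm_num) (by decide) (by norm_num)
  · exact exists_principal_self 11 K 58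
  · exact exists_inertia_of_order 11 K 58 13 2 (by norm_num) (by decide) (by norm_num)
  · exact exists_inertia_of_order 11 K 58 17 2 (by norm_num) (by decide) (by norm_num)
  · exact exists_inertia_of_order 11 K 58 19 2 (by norm_num) (by decide) (by norm_num)
  · exact cert_eleven_23 K 58
  · exact exists_inertia_of_order 11 K 58 29 2 (by norm_num) (by decide) (by norm_num)
  · exact exists_inertia_of_order 11 K 58 31 2 (by norm_num) (by decide) (by norm_num)
  · exact exists_inertia_of_order 11 K 58 37 2 (by norm_num) (by decide) (by norm_num)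
  · exact exists_inertia_of_order 11 K 58 41 2 (by norm_num) (by decide) (by norm_num)
  · exact exists_inertia_of_order 11 K 58 43 2 (by norm_num) (by decide) (by norm_num)
  · exact exists_inertia_of_order 11 K 58 47 2 (by norm_num) (by decide) (by norm_num)
  · exact exists_inertia_of_order 11 K 58 53 2 (by norm_num) (by decide) (by norm_num)

end Fermat.Agent.S11.PID
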