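import Mathlib

/-!
# Kummer's descent (the "second case") for a prime `p` such that `ℤ[ζ_p]` is a PID and
Kummer's lemma holds.
-/

set_option autoImplicit false

namespace Fermat.Agent.S11

open NumberField IsCyclotomicExtension.Rat Polynomial

section CaseII

variable {p : ℕ} [hp : Fact p.Prime] {K : Type*} [Field K] [NumberField K]
  [hK : IsCyclotomicExtension {p} ℚ K] {ζ : K} (hζ : IsPrimitiveRoot ζ p)

/-- Every algebraic integer of `ℚ(ζ_p)` is congruent to a rational integer modulo `ζ - 1`. -/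
theorem exists_int_sub_dvd (hp2 : p ≠ 2) (x : 𝓞 K) :
    ∃ n : ℤ, hζ.toInteger - 1 ∣ x - (n : 𝓞 K) := by
  have hcard : Nat.card (𝓞 K ⧸ Ideal.span {hζ.toInteger - 1}) = p := by
    rw [hζ.card_quotient_toInteger_sub_one, hζ.norm_toInteger_sub_one_of_prime_ne_two' hp2]
    simp
  have hone : (1 : 𝓞 K ⧸ Ideal.span {hζ.toInteger - 1}) ≠ 0 := by
    intro h
    have h1 : (1 : 𝓞 K) ∈ Ideal.span {hζ.toInteger - 1} := by
      rw [← Ideal.Quotient.eq_zero_iff_mem, map_one]; exact h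
    rw [Ideal.mem_span_singleton] at h1
    exact hζ.zeta_sub_one_prime'.not_isUnit (isUnit_of_dvd_one h1)
  have hmem := mem_zmultiples_of_prime_card hcard (g' := Ideal.Quotient.mk _ x) hone
  obtain ⟨n, hn⟩ := AddSubgroup.mem_zmultiples_iff.1 hmem
  refine ⟨n, ?_⟩
  rw [← Ideal.mem_span_singleton, ← Ideal.Quotient.eq_zero_iff_mem, map_sub, ← hn]
  simp

/-- If `x ≡ y mod (ζ - 1)` then `x ^ p ≡ y ^ p mod (ζ - 1) ^ p`. -/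
theorem zeta_sub_one_pow_dvd_pow_sub_pow {x y : 𝓞 K} (h : hζ.toInteger - 1 ∣ x - y) :
    (hζ.toInteger - 1) ^ p ∣ x ^ p - y ^ p := by
  have hprim := hζ.toInteger_isPrimitiveRoot
  rw [hprim.pow_sub_pow_eq_prod_sub_mul x y hp.out.pos]
  have hc : (nthRootsFinset p (1 : 𝓞 K)).card = p := hprim.card_nthRootsFinset
  generalize hζ.toInteger = z at *
  have hpow : (z - 1) ^ p = ∏ _η ∈ nthRootsFinset p (1 : 𝓞 K), (z - 1) := by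
    rw [Finset.prod_const, hc]
  rw [hpow]
  refine Finset.prod_dvd_prod_of_dvd _ _ fun η hη => ?_
  have h1 : z - 1 ∣ (1 : 𝓞 K) - η :=
    hprim.sub_one_dvd_sub hp.out (one_mem_nthRootsFinset hp.out.pos) hη
  have : x - η * y = (x - y) + (1 - η) * y := by ring
  rw [this]
  exact dvd_add h (Dvd.dvd.mul_right h1 y)

/-- `p` divides `(ζ - 1) ^ p`. -/
theorem natCast_dvd_zeta_sub_one_pow : (p : 𝓞 K) ∣ (hζ.toInteger - 1) ^ p := by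
  have h := (associated_zeta_sub_one_pow_prime p hζ).symm.dvd
  exact h.trans (pow_dvd_pow _ (Nat.sub_le p 1))

/-- `p`-th powers are congruent to rational integers modulo `p`. -/
theorem exists_int_sub_pow_dvd (hp2 : p ≠ 2) (x : 𝓞 K) :
    ∃ n : ℤ, (p : 𝓞 K) ∣ x ^ p - (n : 𝓞 K) ∧ (hζ.toInteger - 1 ∣ x ↔ (p : ℤ) ∣ n) := by
  obtain ⟨n, hn⟩ := exists_int_sub_dvd hζ hp2 x
  refine ⟨n ^ p, ?_, ?_⟩
  · push_cast
    exact (natCast_dvd_zeta_sub_one_pow hζ).trans (zeta_sub_one_pow_dvd_pow_sub_pow hζ hn)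
  · have hprime := hζ.zeta_sub_one_prime'
    rw [(Nat.prime_iff_prime_int.1 hp.out).dvd_pow_iff_dvd hp.out.ne_zero,
      ← zeta_sub_one_dvd_intCast_iff' p hζ]
    constructor
    · intro hx
      have := dvd_sub hx hn
      simpa using this
    · intro hx
      have := dvd_add hn hx
      simpa using this


/-- The generalised Fermat equation `ω ^ p + θ ^ p = η * (ζ - 1) ^ (p * m) * ξ ^ p` of Kummer's
descent. -/
def Sol (m : ℕ) : Prop :=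
  ∃ (ω θ ξ : 𝓞 K) (η : (𝓞 K)ˣ), ¬ hζ.toInteger - 1 ∣ θ ∧ ¬ hζ.toInteger - 1 ∣ ξ ∧ IsCoprime ω θ ∧
    ω ^ p + θ ^ p = η * (hζ.toInteger - 1) ^ (p * m) * ξ ^ p

/-- Kummer's lemma for the field `K`, as a hypothesis. -/
def KummerLemmaHolds (p : ℕ) (K : Type*) [Field K] [NumberField K] : Prop :=
  ∀ u : (𝓞 K)ˣ, (∃ n : ℤ, (p : 𝓞 K) ∣ (u : 𝓞 K) - (n : 𝓞 K)) → ∃ v : (𝓞 K)ˣ, u = v ^ p

theorem descent_aux (hp2 : p ≠ 2) [IsPrincipalIdealRing (𝓞 K)] (hKL : KummerLemmaHolds p K)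
    {m : ℕ} (hm : 1 ≤ m) (ω θ ξ : 𝓞 K) (η : (𝓞 K)ˣ) (hθ : ¬ hζ.toInteger - 1 ∣ θ)
    (hξ : ¬ hζ.toInteger - 1 ∣ ξ) (hcop : IsCoprime ω θ)
    (heq : ω ^ p + θ ^ p = η * (hζ.toInteger - 1) ^ (p * m) * ξ ^ p)
    (h2 : (hζ.toInteger - 1) ^ 2 ∣ ω + θ) : 2 ≤ m ∧ Sol hζ (m - 1) := by
  classical
  have hπ : Prime (hζ.toInteger - 1) := hζ.zeta_sub_one_prime'
  have hprim : IsPrimitiveRoot hζ.toInteger p := hζ.toInteger_isPrimitiveRoot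
  have hodd : Odd p := hp.out.odd_of_ne_two hp2
  have hp3 : 3 ≤ p := by
    have := hp.out.two_le
    omega
  have hpdvd : (p : 𝓞 K) ∣ (hζ.toInteger - 1) ^ p := natCast_dvd_zeta_sub_one_pow hζ
  have hintpow := exists_int_sub_pow_dvd hζ hp2
  unfold Sol
  generalize hζ.toInteger = ζ₁ at *
  set π := ζ₁ - 1 with hπdef
  set S := nthRootsFinset p (1 : 𝓞 K) with hS
  have hScard : S.card = p := hprim.card_nthRootsFinset
  have hprod : ∏ μ ∈ S, (ω + μ * θ) = η * π ^ (p * m) * ξ ^ p := by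
    rw [← heq, hprim.pow_add_pow_eq_prod_add_mul ω θ hodd]
  have h1S : (1 : 𝓞 K) ∈ S := one_mem_nthRootsFinset hp.out.pos
  have hdiff : ∀ μ₁ ∈ S, ∀ μ₂ ∈ S, π ∣ μ₁ - μ₂ :=
    fun μ₁ h₁ μ₂ h₂ => hprim.sub_one_dvd_sub hp.out h₁ h₂
  have hdvd_all : ∀ μ ∈ S, π ∣ ω + μ * θ := by
    intro μ hμ
    have : ω + μ * θ = (ω + θ) + (μ - 1) * θ := by ring
    rw [this]
    exact dvd_add ((dvd_pow_self π two_ne_zero).trans h2) (Dvd.dvd.mul_right (hdiff μ hμ 1 h1S) θ)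
  choose! y hy using hdvd_all
  have hassoc : ∀ μ₁ ∈ S, ∀ μ₂ ∈ S, μ₁ ≠ μ₂ → ∃ u : (𝓞 K)ˣ, μ₁ - μ₂ = π * u := by
    intro μ₁ h₁ μ₂ h₂ hne
    obtain ⟨u, hu⟩ :=
      hprim.nthRootsFinset_pairwise_associated_sub_one_sub_of_prime hp.out h₁ h₂ hne
    exact ⟨u, hu.symm⟩
  have hydiff : ∀ μ₁ ∈ S, ∀ μ₂ ∈ S, μ₁ ≠ μ₂ → ∃ u : (𝓞 K)ˣ,
      y μ₁ - y μ₂ = u * θ ∧ μ₂ * y μ₁ - μ₁ * y μ₂ = - u * ω := by
    intro μ₁ h₁ μ₂ h₂ hne
    obtain ⟨u, hu⟩ := hassoc μ₁ h₁ μ₂ h₂ hne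
    have e1 := hy μ₁ h₁
    have e2 := hy μ₂ h₂
    refine ⟨u, ?_, ?_⟩
    · apply mul_left_cancel₀ hπ.ne_zero
      linear_combination (-1 : 𝓞 K) * e1 + e2 + θ * hu
    · apply mul_left_cancel₀ hπ.ne_zero
      linear_combination (-μ₂) * e1 + μ₁ * e2 - ω * hu
  have hnotdvd_unit_mul : ∀ (u : (𝓞 K)ˣ) (x : 𝓞 K), π ∣ (u : 𝓞 K) * x → π ∣ x := by
    intro u x h
    exact (hπ.dvd_mul.1 h).resolve_left
      (fun h' => hπ.not_isUnit (isUnit_of_dvd_unit h' u.isUnit))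
  -- `π ∣ y 1` and `π ∤ y μ` for `μ ≠ 1`
  have hy1 : π ∣ y 1 := by
    have h := hy 1 h1S
    rw [one_mul] at h
    rw [h, pow_two] at h2
    exact (mul_dvd_mul_iff_left hπ.ne_zero).1 h2
  have hyne : ∀ μ ∈ S, μ ≠ 1 → ¬ π ∣ y μ := by
    intro μ hμ hne hdvd
    obtain ⟨u, hu, -⟩ := hydiff μ hμ 1 h1S hne
    have : π ∣ (u : 𝓞 K) * θ := by rw [← hu]; exact dvd_sub hdvd hy1
    exact hθ (hnotdvd_unit_mul u θ this)
  -- the product of the `y μ`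
  have hpowS : π ^ p = ∏ _μ ∈ S, π := by rw [Finset.prod_const, hScard]
  have hprod_y : π ^ p * ∏ μ ∈ S, y μ = η * π ^ (p * m) * ξ ^ p := by
    rw [← hprod, hpowS, ← Finset.prod_mul_distrib]
    exact Finset.prod_congr rfl (fun μ hμ => (hy μ hμ).symm)
  have hpm : p * m = p + p * (m - 1) := by
    obtain ⟨m', rfl⟩ : ∃ m', m = m' + 1 := ⟨m - 1, by omega⟩
    simp [mul_add, add_comm]
  have hprod_y' : ∏ μ ∈ S, y μ = η * π ^ (p * (m - 1)) * ξ ^ p := by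
    apply mul_left_cancel₀ (pow_ne_zero p hπ.ne_zero)
    rw [hprod_y, hpm, pow_add]
    ring
  set Y' := ∏ μ ∈ S.erase 1, y μ with hY'
  have hsplit : y 1 * Y' = η * π ^ (p * (m - 1)) * ξ ^ p := by
    rw [← hprod_y', hY', Finset.mul_prod_erase S y h1S]
  have hY'ndvd : ¬ π ∣ Y' := by
    intro h
    obtain ⟨μ, hμ, hμd⟩ := (Prime.dvd_finsetProd_iff hπ _).1 h
    exact hyne μ (Finset.mem_of_mem_erase hμ) (Finset.ne_of_mem_erase hμ) hμd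
  obtain ⟨w, hw⟩ : π ^ (p * (m - 1)) ∣ y 1 := by
    apply hπ.pow_dvd_of_dvd_mul_right _ hY'ndvd
    rw [hsplit]
    exact Dvd.dvd.mul_right (Dvd.intro_left _ rfl) _
  have hwY : w * Y' = η * ξ ^ p := by
    apply mul_left_cancel₀ (pow_ne_zero (p * (m - 1)) hπ.ne_zero)
    rw [← mul_assoc, ← hw, hsplit]
    ring
  have hξp : ¬ π ∣ (η : 𝓞 K) * ξ ^ p := fun h =>
    hξ (hπ.dvd_of_dvd_pow (hnotdvd_unit_mul η _ h))
  have hwndvd : ¬ π ∣ w := fun h => hξp (hwY ▸ Dvd.dvd.mul_right h Y')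
  have hm2 : 2 ≤ m := by
    by_contra hlt
    have hm1 : m = 1 := by omega
    rw [hm1] at hw
    simp only [Nat.sub_self, mul_zero, pow_zero, one_mul] at hw
    exact hwndvd (hw ▸ hy1)
  refine ⟨hm2, ?_⟩
  -- pairwise coprimality
  have hcop_y : ∀ μ₁ ∈ S, ∀ μ₂ ∈ S, μ₁ ≠ μ₂ → IsCoprime (y μ₁) (y μ₂) := by
    intro μ₁ h₁ μ₂ h₂ hne
    obtain ⟨u, hu1, hu2⟩ := hydiff μ₁ h₁ μ₂ h₂ hne
    obtain ⟨s, t, hst⟩ := hcop
    refine ⟨(↑u⁻¹ : 𝓞 K) * (t - s * μ₂), (↑u⁻¹ : 𝓞 K) * (s * μ₁ - t), ?_⟩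
    have hu : (↑u⁻¹ : 𝓞 K) * (u : 𝓞 K) = 1 := by simp
    linear_combination ((↑u⁻¹ : 𝓞 K) * t) * hu1 - ((↑u⁻¹ : 𝓞 K) * s) * hu2
      + (t * θ + s * ω) * hu + hst
  set z : 𝓞 K → 𝓞 K := fun μ => if μ = 1 then w else y μ with hz
  have hz1 : z 1 = w := by simp [hz]
  have hzne : ∀ μ, μ ≠ 1 → z μ = y μ := fun μ hμ => by simp [hz, hμ]
  have hzdvd : ∀ μ, z μ ∣ y μ := by
    intro μ
    by_cases hμ : μ = 1
    · rw [hμ, hz1, hw]; exact Dvd.intro_left _ rfl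
    · rw [hzne μ hμ]
  have hcop_z : ∀ μ₁ ∈ S, ∀ μ₂ ∈ S, μ₁ ≠ μ₂ → IsCoprime (z μ₁) (z μ₂) := by
    intro μ₁ h₁ μ₂ h₂ hne
    exact ((hcop_y μ₁ h₁ μ₂ h₂ hne).of_isCoprime_of_dvd_left (hzdvd μ₁)).of_isCoprime_of_dvd_right
      (hzdvd μ₂)
  have hprod_z : ∏ μ ∈ S, z μ = η * ξ ^ p := by
    rw [← Finset.mul_prod_erase S z h1S, hz1, ← hwY, hY']
    congr 1
    exact Finset.prod_congr rfl (fun μ hμ => hzne μ (Finset.ne_of_mem_erase hμ))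
  have hzndvd : ∀ μ ∈ S, ¬ π ∣ z μ := by
    intro μ hμ
    by_cases h1 : μ = 1
    · rw [h1, hz1]; exact hwndvd
    · rw [hzne μ h1]; exact hyne μ hμ h1
  have hpow_z : ∀ μ ∈ S, ∃ (d : 𝓞 K) (ε : (𝓞 K)ˣ), d ^ p * ε = z μ ∧ ¬ π ∣ d := by
    intro μ hμ
    have hc : IsCoprime (z μ) (∏ ν ∈ S.erase μ, z ν) :=
      IsCoprime.prod_right (fun ν hν =>
        hcop_z μ hμ ν (Finset.mem_of_mem_erase hν) (Finset.ne_of_mem_erase hν).symm)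
    have hassoc' : Associated (ξ ^ p) (z μ * ∏ ν ∈ S.erase μ, z ν) := by
      rw [Finset.mul_prod_erase S z hμ, hprod_z]
      exact ⟨η, by ring⟩
    obtain ⟨d, ε, hd⟩ := exists_associated_pow_of_associated_pow_mul hc hassoc'
    refine ⟨d, ε, hd, fun hdd => hzndvd μ hμ ?_⟩
    rw [← hd]
    exact Dvd.dvd.mul_right (dvd_pow hdd hp.out.ne_zero) _
  -- the three roots of unity `1`, `ζ₁`, `ζ₂ = ζ₁⁻¹`
  set ζ₂ := ζ₁ ^ (p - 1) with hζ₂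
  have hζ12 : ζ₁ * ζ₂ = 1 := by
    rw [hζ₂, ← pow_succ', Nat.sub_add_cancel hp.out.one_le, hprim.pow_eq_one]
  have hζ₁S : ζ₁ ∈ S := hprim.mem_nthRootsFinset hp.out.pos
  have hζ₂S : ζ₂ ∈ S := by
    rw [hS, mem_nthRootsFinset hp.out.pos, hζ₂, ← pow_mul, mul_comm, pow_mul, hprim.pow_eq_one,
      one_pow]
  have hζ₁ne : ζ₁ ≠ 1 := hprim.ne_one hp.out.one_lt
  have hζ₂ne : ζ₂ ≠ 1 := by
    intro h
    rw [h, mul_one] at hζ12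
    exact hζ₁ne hζ12
  have hζ₁₂ne : ζ₁ ≠ ζ₂ := by
    intro h
    have h3 : ζ₁ ^ 2 = 1 := by rw [pow_two]; nth_rewrite 2 [h]; exact hζ12
    have := hprim.dvd_of_pow_eq_one 2 h3
    have := Nat.le_of_dvd (by norm_num) this
    omega
  obtain ⟨d₁, ε₁, hd₁, hd₁π⟩ := hpow_z ζ₁ hζ₁S
  obtain ⟨d₂, ε₂, hd₂, hd₂π⟩ := hpow_z ζ₂ hζ₂S
  obtain ⟨d₀, ε₀, hd₀, hd₀π⟩ := hpow_z 1 h1S
  rw [hzne ζ₁ hζ₁ne] at hd₁
  rw [hzne ζ₂ hζ₂ne] at hd₂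
  rw [hz1] at hd₀
  -- the key linear relation
  have hlin : ζ₁ * y ζ₂ + y ζ₁ = (1 + ζ₁) * y 1 := by
    apply mul_left_cancel₀ hπ.ne_zero
    have e0 := hy 1 h1S
    have e1 := hy ζ₁ hζ₁S
    have e2 := hy ζ₂ hζ₂S
    linear_combination (-ζ₁) * e2 - e1 + (1 + ζ₁) * e0 + θ * hζ12
  have hE : ζ₁ * ε₂ * d₂ ^ p + ε₁ * d₁ ^ p
      = (1 + ζ₁) * π ^ (p * (m - 1)) * ε₀ * d₀ ^ p := by
    rw [← hd₁, ← hd₂, hw, ← hd₀] at hlin
    linear_combination hlin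
  -- reduce modulo `p`
  obtain ⟨n₁, ⟨B₁, hB₁⟩, -⟩ := hintpow d₁
  obtain ⟨n₂, ⟨B₂, hB₂⟩, hn₂π⟩ := hintpow d₂
  have hn₂p : ¬ (p : ℤ) ∣ n₂ := fun h => hd₂π (hn₂π.2 h)
  obtain ⟨k, C, hk⟩ : ∃ k C : ℤ, n₂ * k - 1 = p * C := by
    have hcop' : IsCoprime (p : ℤ) n₂ :=
      (Nat.prime_iff_prime_int.1 hp.out).coprime_iff_not_dvd.2 hn₂p
    obtain ⟨a, b, hab⟩ := hcop'
    exact ⟨b, -a, by linear_combination hab⟩
  obtain ⟨A, hA⟩ : (p : 𝓞 K) ∣ (1 + ζ₁) * π ^ (p * (m - 1)) * ε₀ * d₀ ^ p := by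
    have hle : p ≤ p * (m - 1) := Nat.le_mul_of_pos_right p (by omega)
    have : π ^ p ∣ π ^ (p * (m - 1)) := pow_dvd_pow _ hle
    exact Dvd.dvd.mul_right (Dvd.dvd.mul_right (Dvd.dvd.mul_left (hpdvd.trans this) _) _) _
  have hE' : ζ₁ * ε₂ * d₂ ^ p + ε₁ * d₁ ^ p = p * A := hE.trans hA
  have hu : (↑ε₁⁻¹ : 𝓞 K) * (ε₁ : 𝓞 K) = 1 := by simp
  have hk' : (n₂ : 𝓞 K) * k - 1 = p * C := by exact_mod_cast congrArg (Int.cast : ℤ → 𝓞 K) hk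
  have hKLapp : ∃ v : (𝓞 K)ˣ, (v : 𝓞 K) ^ p = ζ₁ * ε₂ * (↑ε₁⁻¹ : 𝓞 K) := by
    obtain ⟨v, hv⟩ := hKL (Units.mkOfMulEqOne ζ₁ ζ₂ hζ12 * ε₂ * ε₁⁻¹) (by
      refine ⟨-(k * n₁), (↑ε₁⁻¹ : 𝓞 K) * (k * A - k * ζ₁ * ε₂ * B₂ - k * ε₁ * B₁ - C * ζ₁ * ε₂), ?_⟩
      simp only [Units.val_mul, Units.val_mkOfMulEqOne]
      push_cast
      linear_combination (-((↑ε₁⁻¹ : 𝓞 K) * ζ₁ * ε₂)) * hk' - ((↑ε₁⁻¹ : 𝓞 K) * k * ζ₁ * ε₂) * hB₂
        + ((↑ε₁⁻¹ : 𝓞 K) * k) * hE' - ((↑ε₁⁻¹ : 𝓞 K) * k * ε₁) * hB₁ - ((k : 𝓞 K) * n₁) * hu)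
    refine ⟨v, ?_⟩
    have := congrArg (fun u : (𝓞 K)ˣ => (u : 𝓞 K)) hv
    simp only [Units.val_mul, Units.val_mkOfMulEqOne, Units.val_pow_eq_pow_val] at this
    exact this.symm
  obtain ⟨v, hv⟩ := hKLapp
  have h1ζ : IsUnit (1 + ζ₁) := by
    have := hprim.geom_sum_isUnit hp.out.two_le (j := 2) (Nat.coprime_two_left.2 hodd)
    simpa [Finset.sum_range_succ] using this
  refine ⟨d₁, v * d₂, d₀, ε₁⁻¹ * h1ζ.unit * ε₀, fun h => hd₂π (hnotdvd_unit_mul v d₂ h), hd₀π,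
    ?_, ?_⟩
  · have h12 := hcop_y ζ₁ hζ₁S ζ₂ hζ₂S hζ₁₂ne
    rw [← hd₁, ← hd₂] at h12
    have h12' : IsCoprime d₁ d₂ :=
      ((IsCoprime.pow_left_iff hp.out.pos).1 h12.of_mul_left_left).symm |> fun h =>
        ((IsCoprime.pow_left_iff hp.out.pos).1 h.of_mul_left_left).symm
    exact (isCoprime_mul_unit_left_right v.isUnit _ _).2 h12'
  · rw [mul_pow]
    simp only [Units.val_mul, IsUnit.unit_spec]
    linear_combination (↑ε₁⁻¹ : 𝓞 K) * hE + d₂ ^ p * hv - d₁ ^ p * hu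

/-- The descent step: a solution with parameter `m ≥ 1` forces `m ≥ 2` and yields a solution with
parameter `m - 1`. -/
theorem descent (hp2 : p ≠ 2) [IsPrincipalIdealRing (𝓞 K)] (hKL : KummerLemmaHolds p K)
    {m : ℕ} (hm : 1 ≤ m) (h : Sol hζ m) : 2 ≤ m ∧ Sol hζ (m - 1) := by
  classical
  obtain ⟨ω, θ, ξ, η, hθ, hξ, hcop, heq⟩ := h
  have hπ : Prime (hζ.toInteger - 1) := hζ.zeta_sub_one_prime'
  have hprim : IsPrimitiveRoot hζ.toInteger p := hζ.toInteger_isPrimitiveRoot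
  have hodd : Odd p := hp.out.odd_of_ne_two hp2
  have hcard : Nat.card (𝓞 K ⧸ Ideal.span {hζ.toInteger - 1}) = p := by
    rw [hζ.card_quotient_toInteger_sub_one, hζ.norm_toInteger_sub_one_of_prime_ne_two' hp2]
    simp
  -- it suffices to find a `p`-th root of unity `μ₀` with `π ^ 2 ∣ ω + μ₀ * θ`
  suffices hex : ∃ μ₀ ∈ nthRootsFinset p (1 : 𝓞 K), (hζ.toInteger - 1) ^ 2 ∣ ω + μ₀ * θ by
    obtain ⟨μ₀, hμ₀, hμ₀d⟩ := hex
    have hμ₀p : μ₀ ^ p = 1 := (mem_nthRootsFinset hp.out.pos 1).1 hμ₀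
    have hμ₀u : IsUnit μ₀ := IsUnit.of_pow_eq_one hμ₀p hp.out.ne_zero
    refine descent_aux hζ hp2 hKL hm ω (μ₀ * θ) ξ η ?_ hξ ?_ ?_ hμ₀d
    · intro h
      exact hθ ((hπ.dvd_mul.1 h).resolve_left
        (fun h' => hπ.not_isUnit (isUnit_of_dvd_unit h' hμ₀u)))
    · exact (isCoprime_mul_unit_left_right hμ₀u _ _).2 hcop
    · rw [mul_pow, hμ₀p, one_mul, heq]
  generalize hζ.toInteger = ζ₁ at *
  set π := ζ₁ - 1 with hπdef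
  set S := nthRootsFinset p (1 : 𝓞 K) with hS
  have hScard : S.card = p := hprim.card_nthRootsFinset
  have hprod : ∏ μ ∈ S, (ω + μ * θ) = η * π ^ (p * m) * ξ ^ p := by
    rw [← heq, hprim.pow_add_pow_eq_prod_add_mul ω θ hodd]
  have hdiff : ∀ μ₁ ∈ S, ∀ μ₂ ∈ S, π ∣ μ₁ - μ₂ :=
    fun μ₁ h₁ μ₂ h₂ => hprim.sub_one_dvd_sub hp.out h₁ h₂
  have hdvd_all : ∀ μ ∈ S, π ∣ ω + μ * θ := by
    have h0 : π ∣ ∏ μ ∈ S, (ω + μ * θ) := by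
      rw [hprod]
      have hpm : p * m ≠ 0 := Nat.mul_ne_zero hp.out.ne_zero (by omega)
      exact Dvd.dvd.mul_right (Dvd.dvd.mul_left (dvd_pow_self π hpm) _) _
    obtain ⟨μ₀, hμ₀, hμ₀d⟩ := (Prime.dvd_finsetProd_iff hπ _).1 h0
    intro μ hμ
    have : ω + μ * θ = (ω + μ₀ * θ) + (μ - μ₀) * θ := by ring
    rw [this]
    exact dvd_add hμ₀d (Dvd.dvd.mul_right (hdiff μ hμ μ₀ hμ₀) θ)
  choose! y hy using hdvd_all
  have hydiff : ∀ μ₁ ∈ S, ∀ μ₂ ∈ S, μ₁ ≠ μ₂ → ∃ u : (𝓞 K)ˣ, y μ₁ - y μ₂ = u * θ := by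
    intro μ₁ h₁ μ₂ h₂ hne
    obtain ⟨u, hu⟩ :=
      hprim.nthRootsFinset_pairwise_associated_sub_one_sub_of_prime hp.out h₁ h₂ hne
    have e1 := hy μ₁ h₁
    have e2 := hy μ₂ h₂
    refine ⟨u, ?_⟩
    apply mul_left_cancel₀ hπ.ne_zero
    linear_combination (-1 : 𝓞 K) * e1 + e2 - θ * hu
  have hex : ∃ μ₀ ∈ S, π ∣ y μ₀ := by
    by_contra hcon
    push Not at hcon
    let f : S → 𝓞 K ⧸ Ideal.span {π} := fun μ => Ideal.Quotient.mk _ (y μ.1)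
    have hinj : Function.Injective f := by
      intro μ₁ μ₂ h12
      by_contra hne
      have hne' : μ₁.1 ≠ μ₂.1 := fun h => hne (Subtype.ext h)
      obtain ⟨u, hu⟩ := hydiff μ₁.1 μ₁.2 μ₂.1 μ₂.2 hne'
      have hd : π ∣ y μ₁.1 - y μ₂.1 := by
        rw [← Ideal.mem_span_singleton, ← Ideal.Quotient.eq]
        exact h12
      rw [hu] at hd
      exact hθ ((hπ.dvd_mul.1 hd).resolve_left
        (fun h' => hπ.not_isUnit (isUnit_of_dvd_unit h' u.isUnit)))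
    have : Finite (𝓞 K ⧸ Ideal.span {π}) :=
      Nat.finite_of_card_ne_zero (by rw [hcard]; exact hp.out.ne_zero)
    have hbij := hinj.bijective_of_nat_card_le
      (by rw [hcard, Nat.card_eq_fintype_card, Fintype.card_coe, hScard])
    obtain ⟨μ₀, hμ₀⟩ := hbij.2 0
    exact hcon μ₀.1 μ₀.2 (by
      rw [← Ideal.mem_span_singleton, ← Ideal.Quotient.eq_zero_iff_mem]; exact hμ₀)
  obtain ⟨μ₀, hμ₀, hμ₀d⟩ := hex
  refine ⟨μ₀, hμ₀, ?_⟩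
  rw [hy μ₀ hμ₀, pow_two]
  exact mul_dvd_mul_left π hμ₀d

/-- There is no solution of the generalised equation with `m ≥ 1`. -/
theorem not_sol (hp2 : p ≠ 2) [IsPrincipalIdealRing (𝓞 K)] (hKL : KummerLemmaHolds p K) :
    ∀ m : ℕ, 1 ≤ m → ¬ Sol hζ m := by
  intro m
  induction m with
  | zero => intro h; omega
  | succ m ih =>
    intro _ hsol
    obtain ⟨h2, hsol'⟩ := descent hζ hp2 hKL (Nat.succ_le_succ (Nat.zero_le m)) hsol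
    exact ih (by omega) (by simpa using hsol')

end CaseII

section Main

variable (p : ℕ) [hp : Fact p.Prime] (K : Type*) [Field K] [NumberField K]
  [hK : IsCyclotomicExtension {p} ℚ K]

/-- **Kummer's second case.** If `ℤ[ζ_p]` is a PID and Kummer's lemma holds for `p`, then
`a ^ p + b ^ p = c ^ p` has no solution in integers with `a`, `b` coprime, `c ≠ 0` and `p ∣ c`. -/
theorem caseII (hp2 : p ≠ 2) [IsPrincipalIdealRing (𝓞 K)] (hKL : KummerLemmaHolds p K)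
    (a b c : ℤ) (hab : IsCoprime a b) (hc : c ≠ 0) (hpc : (p : ℤ) ∣ c)
    (h : a ^ p + b ^ p = c ^ p) : False := by
  have hζ := IsCyclotomicExtension.zeta_spec p ℚ K
  have hpZ : Prime (p : ℤ) := Nat.prime_iff_prime_int.1 hp.out
  -- `p ∤ b`
  have hpb : ¬ (p : ℤ) ∣ b := by
    intro hb
    have hbp : (p : ℤ) ∣ b ^ p := Dvd.dvd.pow hb hp.out.ne_zero
    have hcp : (p : ℤ) ∣ c ^ p := Dvd.dvd.pow hpc hp.out.ne_zero
    have ha : (p : ℤ) ∣ a ^ p := by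
      have : a ^ p = c ^ p - b ^ p := by linear_combination h
      rw [this]
      exact dvd_sub hcp hbp
    have ha' : (p : ℤ) ∣ a := hpZ.dvd_of_dvd_pow ha
    exact hpZ.not_isUnit (hab.isUnit_of_dvd' ha' hb)
  -- write `c = p ^ k * c₀`
  have hfin : FiniteMultiplicity (p : ℤ) c :=
    Int.finiteMultiplicity_iff.2 ⟨by simpa using hp.out.ne_one, hc⟩
  obtain ⟨c₀, hc₀, hpc₀⟩ := hfin.exists_eq_pow_mul_and_not_dvd
  set k := multiplicity (p : ℤ) c with hk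
  have hk1 : 1 ≤ k := by
    by_contra hk0
    have : k = 0 := by omega
    rw [this, pow_zero, one_mul] at hc₀
    exact hpc₀ (hc₀ ▸ hpc)
  obtain ⟨u, hu⟩ := associated_zeta_sub_one_pow_prime p hζ
  have hm : 1 ≤ (p - 1) * k := Nat.mul_pos (by have := hp.out.two_le; omega) hk1
  refine not_sol hζ hp2 hKL ((p - 1) * k) hm ⟨(a : 𝓞 K), (b : 𝓞 K), (c₀ : 𝓞 K), u ^ (k * p), ?_, ?_, ?_, ?_⟩
  · rw [zeta_sub_one_dvd_intCast_iff' p hζ]; exact hpb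
  · rw [zeta_sub_one_dvd_intCast_iff' p hζ]; exact hpc₀
  · exact hab.map (Int.castRingHom (𝓞 K))
  · have h' : ((a : ℤ) : 𝓞 K) ^ p + (b : 𝓞 K) ^ p = (c : 𝓞 K) ^ p := by exact_mod_cast congrArg (Int.cast : ℤ → 𝓞 K) h
    rw [h', hc₀]
    push_cast
    rw [← hu]
    ring



end Main

end Fermat.Agent.S11
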