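import Mathlib

set_option autoImplicit false

namespace Fermat.Agent.S11.PID

open NumberField Polynomial Ideal RingOfIntegers IsCyclotomicExtension IsCyclotomicExtension.Rat

section
variable (p : ℕ) [hp : Fact p.Prime] (K : Type*) [Field K] [NumberField K]
  [hK : IsCyclotomicExtension {p} ℚ K]

/-- The chosen primitive `p`-th root of unity, as an algebraic integer. -/
noncomputable abbrev zetaInt : 𝓞 K := (zeta_spec p ℚ K).toInteger

theorem zetaInt_sum : ∑ i ∈ Finset.range p, (zetaInt p K) ^ i = 0 :=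
  (zeta_spec p ℚ K).toInteger_isPrimitiveRoot.geom_sum_eq_zero hp.out.one_lt

theorem not_dvd_exponent (q : ℕ) [hq : Fact q.Prime] : ¬ q ∣ exponent (zetaInt p K) := by
  rw [exponent_eq_one_iff.mpr <| adjoin_singleton_eq_top (zeta_spec p ℚ K)]
  exact hq.out.not_dvd_one

theorem map_minpoly_zetaInt (q : ℕ) :
    (minpoly ℤ (zetaInt p K)).map (Int.castRingHom (ZMod q)) = cyclotomic p (ZMod q) := by
  rw [← map_cyclotomic_int, cyclotomic_eq_minpoly (zeta_spec p ℚ K) hp.out.pos,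
    ← (zeta_spec p ℚ K).coe_toInteger, ← RingOfIntegers.minpoly_coe]
  rfl

/-- Kummer-Dedekind for the cyclotomic ring of integers: a monic irreducible factor `Q` of the
cyclotomic polynomial modulo `q` gives the prime `(q, Q(ζ))` over `q`. -/
theorem span_pair_mem_primesOver (q : ℕ) [hq : Fact q.Prime] (Q : ℤ[X])
    (hirr : Irreducible (Q.map (Int.castRingHom (ZMod q))))
    (hmonic : (Q.map (Int.castRingHom (ZMod q))).Monic)
    (hdvd : Q.map (Int.castRingHom (ZMod q)) ∣ cyclotomic p (ZMod q)) :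
    span {(q : 𝓞 K), aeval (zetaInt p K) Q} ∈ primesOver (span {(q : ℤ)}) (𝓞 K) := by
  have h₁ := not_dvd_exponent p K q
  have hQ : Q.map (Int.castRingHom (ZMod q)) ∈ monicFactorsMod (zetaInt p K) q := by
    rw [Multiset.mem_toFinset, Polynomial.mem_normalizedFactors_iff
      (map_monic_ne_zero (minpoly.monic (zetaInt p K).isIntegral)), map_minpoly_zetaInt]
    exact ⟨hirr, hmonic, hdvd⟩
  rw [← NumberField.Ideal.primesOverSpanEquivMonicFactorsMod_symm_apply_eq_span h₁ hQ]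
  exact ((NumberField.Ideal.primesOverSpanEquivMonicFactorsMod h₁).symm ⟨_, hQ⟩).2

/-- The prime `(q, ζ - r)` over `q` attached to a root `r` of the cyclotomic polynomial mod `q`. -/
theorem span_pair_linear_mem_primesOver (q : ℕ) [hq : Fact q.Prime] (r : ℤ)
    (hr : (q : ℤ) ∣ ∑ i ∈ Finset.range p, r ^ i) :
    span {(q : 𝓞 K), zetaInt p K - (r : 𝓞 K)} ∈ primesOver (span {(q : ℤ)}) (𝓞 K) := by
  have hr' : ∑ i ∈ Finset.range p, (r : ZMod q) ^ i = 0 := by
    have h0 := (ZMod.intCast_zmod_eq_zero_iff_dvd _ q).mpr hr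
    simpa using h0
  have h := span_pair_mem_primesOver p K q (X - C r)
    (by rw [Polynomial.map_sub, map_X, map_C]; exact irreducible_X_sub_C _)
    (by rw [Polynomial.map_sub, map_X, map_C]; exact monic_X_sub_C _)
    (by
      rw [Polynomial.map_sub, map_X, map_C, dvd_iff_isRoot, IsRoot.def, cyclotomic_prime,
        eval_finsetSum]
      simpa using hr')
  simpa using h

theorem span_pair_eq_span_singleton {R : Type*} [CommRing R] (a x α β γ δ ε : R)
    (h1 : α * β = a) (h2 : α * γ = x) (h3 : α = a * ε + x * δ) :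
    span {a, x} = span {α} := by
  apply le_antisymm
  · rw [span_le]
    rintro y (rfl | hy)
    · exact mem_span_singleton.mpr ⟨β, h1.symm⟩
    · rw [Set.mem_singleton_iff] at hy
      subst hy
      exact mem_span_singleton.mpr ⟨γ, h2.symm⟩
  · rw [span_singleton_le_iff_mem, h3]
    exact add_mem (mul_mem_right _ _ (subset_span (by simp)))
      (mul_mem_right _ _ (subset_span (by simp)))

/-- An exceptional prime `q`, made principal by an explicit certificate. -/
theorem exists_principal_of_cert (B q : ℕ) [hq : Fact q.Prime] (r : ℤ)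
    (hr : (q : ℤ) ∣ ∑ i ∈ Finset.range p, r ^ i) (α β γ δ ε : 𝓞 K)
    (h1 : α * β = (q : 𝓞 K)) (h2 : α * γ = zetaInt p K - (r : 𝓞 K))
    (h3 : α = (q : 𝓞 K) * ε + (zetaInt p K - (r : 𝓞 K)) * δ) :
    ∃ P ∈ primesOver (span {(q : ℤ)}) (𝓞 K),
      B < q ^ P.inertiaDeg ℤ ∨ Submodule.IsPrincipal P :=
  ⟨_, span_pair_linear_mem_primesOver p K q r hr,
    Or.inr ⟨⟨α, span_pair_eq_span_singleton _ _ α β γ δ ε h1 h2 h3⟩⟩⟩

/-- A prime `q ≠ p` all of whose primes have large norm. -/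
theorem exists_inertia_of_order (B q f : ℕ) [hq : Fact q.Prime] (hqp : q ≠ p)
    (hf : ∀ j ∈ Finset.Ioo 0 f, q ^ j % p ≠ 1) (hB : B < q ^ f) :
    ∃ P ∈ primesOver (span {(q : ℤ)}) (𝓞 K),
      B < q ^ P.inertiaDeg ℤ ∨ Submodule.IsPrincipal P := by
  obtain ⟨⟨P, hP1, hP2⟩⟩ := (span {(q : ℤ)}).nonempty_primesOver (S := 𝓞 K)
  refine ⟨P, ⟨hP1, hP2⟩, Or.inl ?_⟩
  have hnd : ¬ q ∣ p := fun h => hqp ((Nat.prime_dvd_prime_iff_eq hq.out hp.out).mp h)
  rw [inertiaDeg_eq_of_not_dvd q K P hnd]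
  have hle : f ≤ orderOf (q : ZMod p) := by
    by_contra hlt
    push Not at hlt
    have hq0 : (q : ZMod p) ≠ 0 := by
      rw [Ne, ZMod.natCast_eq_zero_iff]
      exact fun h => hqp ((Nat.prime_dvd_prime_iff_eq hp.out hq.out).mp h).symm
    have hpos : 0 < orderOf (q : ZMod p) := by
      rw [orderOf_pos_iff, isOfFinOrder_iff_pow_eq_one]
      exact ⟨p - 1, Nat.sub_pos_of_lt hp.out.one_lt, ZMod.pow_card_sub_one_eq_one hq0⟩
    have h1 := pow_orderOf_eq_one (q : ZMod p)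
    have h2 : ((q ^ orderOf (q : ZMod p) : ℕ) : ZMod p) = ((1 : ℕ) : ZMod p) := by
      push_cast
      exact h1
    rw [ZMod.natCast_eq_natCast_iff', Nat.mod_eq_of_lt hp.out.one_lt] at h2
    exact hf _ (Finset.mem_Ioo.mpr ⟨hpos, hlt⟩) h2
  exact lt_of_lt_of_le hB (Nat.pow_le_pow_right hq.out.pos hle)

/-- The prime `p` itself: the unique prime above it is `(ζ - 1)`. -/
theorem exists_principal_self (B : ℕ) :
    ∃ P ∈ primesOver (span {(p : ℤ)}) (𝓞 K),
      B < p ^ P.inertiaDeg ℤ ∨ Submodule.IsPrincipal P := by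
  obtain ⟨⟨P, hP1, hP2⟩⟩ := (span {(p : ℤ)}).nonempty_primesOver (S := 𝓞 K)
  refine ⟨P, ⟨hP1, hP2⟩, Or.inr ?_⟩
  rw [eq_span_zeta_sub_one_of_liesOver' p K (zeta_spec p ℚ K) P]
  exact ⟨⟨_, rfl⟩⟩

end

end Fermat.Agent.S11.PID
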