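/-
S10, piece C13 (helper10): explicit principal primes of `ℤ[ζ₁₃]` above `53, 79, 131, 157`
(the degree-one primes below the Minkowski bound of the 13-th cyclotomic field).
Each is `(q, ζ - r) = (α)` with certificates `α β = q`, `α γ = ζ - r`, `α = q ε + (ζ - r) δ`,
fed to `Fermat.Agent.S11.PID.exists_principal_of_cert`.
-/
import Fermat.Agent.S11.PIDGeneric

set_option autoImplicit false

namespace Fermat.Agent.S11.PID13Gens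

open NumberField Ideal Fermat.Agent.S11.PID

variable (K : Type*) [Field K] [NumberField K] [IsCyclotomicExtension {13} ℚ K]
  [Fact (Nat.Prime 13)]

theorem zeta13_rel : 1 + zetaInt 13 K + zetaInt 13 K ^ 2 + zetaInt 13 K ^ 3 + zetaInt 13 K ^ 4
    + zetaInt 13 K ^ 5 + zetaInt 13 K ^ 6 + zetaInt 13 K ^ 7 + zetaInt 13 K ^ 8
    + zetaInt 13 K ^ 9 + zetaInt 13 K ^ 10 + zetaInt 13 K ^ 11 + zetaInt 13 K ^ 12 = 0 := by
  simpa [Finset.sum_range_succ] using zetaInt_sum 13 K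

/-- `1 - ζ + ζ ^ 3` generates the prime `(53, ζ - 16)` of `ℤ[ζ₁₃]` above `53`. -/
theorem cert_thirteen_53 [Fact (Nat.Prime 53)] (B : ℕ) :
    ∃ P ∈ primesOver (span {((53 : ℕ) : ℤ)}) (𝓞 K),
      B < 53 ^ P.inertiaDeg ℤ ∨ Submodule.IsPrincipal P := by
  have hΦ := zeta13_rel K
  refine exists_principal_of_cert 13 K B 53 16 (by decide)
    (1 - zetaInt 13 K + zetaInt 13 K ^ 3)
    (25 + 10 * zetaInt 13 K + 19 * zetaInt 13 K ^ 2 + 3 * zetaInt 13 K ^ 3 + 2 * zetaInt 13 K ^ 4 - 8 * zetaInt 13 K ^ 5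
      - 2 * zetaInt 13 K ^ 6 + 5 * zetaInt 13 K ^ 7 + 22 * zetaInt 13 K ^ 8 + 33 * zetaInt 13 K ^ 9
      + 37 * zetaInt 13 K ^ 10 + 24 * zetaInt 13 K ^ 11)
    (-8 - 3 * zetaInt 13 K - 6 * zetaInt 13 K ^ 2 - zetaInt 13 K ^ 3 - zetaInt 13 K ^ 4 + 2 * zetaInt 13 K ^ 5
      - 2 * zetaInt 13 K ^ 7 - 7 * zetaInt 13 K ^ 8 - 10 * zetaInt 13 K ^ 9 - 11 * zetaInt 13 K ^ 10
      - 7 * zetaInt 13 K ^ 11)
    (255 + 16 * zetaInt 13 K + zetaInt 13 K ^ 2) 77 ?_ ?_ ?_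
  · generalize zetaInt 13 K = θ at hΦ ⊢
    push_cast
    linear_combination (-28 + 13 * θ + 24 * θ ^ 2) * hΦ
  · generalize zetaInt 13 K = θ at hΦ ⊢
    push_cast
    linear_combination (8 - 4 * θ - 7 * θ ^ 2) * hΦ
  · push_cast
    ring

/-- `1 - ζ - ζ ^ 4` generates the prime `(79, ζ - (-17))` of `ℤ[ζ₁₃]` above `79`. -/
theorem cert_thirteen_79 [Fact (Nat.Prime 79)] (B : ℕ) :
    ∃ P ∈ primesOver (span {((79 : ℕ) : ℤ)}) (𝓞 K),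
      B < 79 ^ P.inertiaDeg ℤ ∨ Submodule.IsPrincipal P := by
  have hΦ := zeta13_rel K
  refine exists_principal_of_cert 13 K B 79 (-17) (by decide)
    (1 - zetaInt 13 K - zetaInt 13 K ^ 4)
    (62 + 63 * zetaInt 13 K + 49 * zetaInt 13 K ^ 2 + 8 * zetaInt 13 K ^ 3 + 29 * zetaInt 13 K ^ 4 + 51 * zetaInt 13 K ^ 5
      + 59 * zetaInt 13 K ^ 6 + 26 * zetaInt 13 K ^ 7 + 14 * zetaInt 13 K ^ 8 + 24 * zetaInt 13 K ^ 9
      + 42 * zetaInt 13 K ^ 10 + 27 * zetaInt 13 K ^ 11)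
    (13 + 14 * zetaInt 13 K + 11 * zetaInt 13 K ^ 2 + 2 * zetaInt 13 K ^ 3 + 6 * zetaInt 13 K ^ 4 + 11 * zetaInt 13 K ^ 5
      + 13 * zetaInt 13 K ^ 6 + 6 * zetaInt 13 K ^ 7 + 3 * zetaInt 13 K ^ 8 + 5 * zetaInt 13 K ^ 9
      + 9 * zetaInt 13 K ^ 10 + 6 * zetaInt 13 K ^ 11)
    (4912 - 289 * zetaInt 13 K + 17 * zetaInt 13 K ^ 2 - zetaInt 13 K ^ 3) (-1057) ?_ ?_ ?_
  · generalize zetaInt 13 K = θ at hΦ ⊢
    push_cast
    linear_combination (-17 + 18 * θ - 15 * θ ^ 2 - 27 * θ ^ 3) * hΦ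
  · generalize zetaInt 13 K = θ at hΦ ⊢
    push_cast
    linear_combination (-4 + 4 * θ - 3 * θ ^ 2 - 6 * θ ^ 3) * hΦ
  · push_cast
    ring

/-- `1 - ζ - ζ ^ 3` generates the prime `(131, ζ - (-51))` of `ℤ[ζ₁₃]` above `131`. -/
theorem cert_thirteen_131 [Fact (Nat.Prime 131)] (B : ℕ) :
    ∃ P ∈ primesOver (span {((131 : ℕ) : ℤ)}) (𝓞 K),
      B < 131 ^ P.inertiaDeg ℤ ∨ Submodule.IsPrincipal P := by
  have hΦ := zeta13_rel K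
  refine exists_principal_of_cert 13 K B 131 (-51) (by decide)
    (1 - zetaInt 13 K - zetaInt 13 K ^ 3)
    (111 + 78 * zetaInt 13 K + 17 * zetaInt 13 K ^ 2 + 67 * zetaInt 13 K ^ 3 + 84 * zetaInt 13 K ^ 4
      + 40 * zetaInt 13 K ^ 5 + 46 * zetaInt 13 K ^ 6 + 69 * zetaInt 13 K ^ 7 + 48 * zetaInt 13 K ^ 8
      + 33 * zetaInt 13 K ^ 9 + 41 * zetaInt 13 K ^ 10 + 28 * zetaInt 13 K ^ 11)
    (43 + 31 * zetaInt 13 K + 7 * zetaInt 13 K ^ 2 + 26 * zetaInt 13 K ^ 3 + 33 * zetaInt 13 K ^ 4 + 16 * zetaInt 13 K ^ 5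
      + 18 * zetaInt 13 K ^ 6 + 27 * zetaInt 13 K ^ 7 + 19 * zetaInt 13 K ^ 8 + 13 * zetaInt 13 K ^ 9
      + 16 * zetaInt 13 K ^ 10 + 11 * zetaInt 13 K ^ 11)
    (-2602 + 51 * zetaInt 13 K - zetaInt 13 K ^ 2) 1013 ?_ ?_ ?_
  · generalize zetaInt 13 K = θ at hΦ ⊢
    push_cast
    linear_combination (-20 - 13 * θ - 28 * θ ^ 2) * hΦ
  · generalize zetaInt 13 K = θ at hΦ ⊢
    push_cast
    linear_combination (-8 - 5 * θ - 11 * θ ^ 2) * hΦ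
  · push_cast
    ring

/-- `1 - ζ + ζ ^ 2 + ζ ^ 4` generates the prime `(157, ζ - 75)` of `ℤ[ζ₁₃]` above `157`. -/
theorem cert_thirteen_157 [Fact (Nat.Prime 157)] (B : ℕ) :
    ∃ P ∈ primesOver (span {((157 : ℕ) : ℤ)}) (𝓞 K),
      B < 157 ^ P.inertiaDeg ℤ ∨ Submodule.IsPrincipal P := by
  have hΦ := zeta13_rel K
  refine exists_principal_of_cert 13 K B 157 75 (by decide)
    (1 - zetaInt 13 K + zetaInt 13 K ^ 2 + zetaInt 13 K ^ 4)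
    (89 + 86 * zetaInt 13 K + 42 * zetaInt 13 K ^ 2 + 77 * zetaInt 13 K ^ 3 + 67 * zetaInt 13 K ^ 4
      + 25 * zetaInt 13 K ^ 5 + 37 * zetaInt 13 K ^ 6 + 56 * zetaInt 13 K ^ 7 + 73 * zetaInt 13 K ^ 8
      + 113 * zetaInt 13 K ^ 9 + 124 * zetaInt 13 K ^ 10 + 76 * zetaInt 13 K ^ 11)
    (-43 - 41 * zetaInt 13 K - 20 * zetaInt 13 K ^ 2 - 37 * zetaInt 13 K ^ 3 - 32 * zetaInt 13 K ^ 4
      - 12 * zetaInt 13 K ^ 5 - 18 * zetaInt 13 K ^ 6 - 27 * zetaInt 13 K ^ 7 - 35 * zetaInt 13 K ^ 8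
      - 54 * zetaInt 13 K ^ 9 - 59 * zetaInt 13 K ^ 10 - 36 * zetaInt 13 K ^ 11)
    (421949 + 5626 * zetaInt 13 K + 75 * zetaInt 13 K ^ 2 + zetaInt 13 K ^ 3) 201568 ?_ ?_ ?_
  · generalize zetaInt 13 K = θ at hΦ ⊢
    push_cast
    linear_combination (-68 + 65 * θ + 48 * θ ^ 2 + 76 * θ ^ 3) * hΦ
  · generalize zetaInt 13 K = θ at hΦ ⊢
    push_cast
    linear_combination (32 - 31 * θ - 23 * θ ^ 2 - 36 * θ ^ 3) * hΦ
  · push_cast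
    ring

end Fermat.Agent.S11.PID13Gens
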